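import Mathlib.RingTheory.LaurentSeries
import Mathlib.Algebra.Polynomial.AlgebraMap
import Mathlib.FieldTheory.IsAlgClosed.Basic

/-!
# Leading coefficients of Laurent series and the rotations `s ↦ w s`
-/

set_option autoImplicit false

noncomputable section

open HahnSeries Polynomial
open scoped LaurentSeries

namespace Fermat.Agent.AbhyankarMoh

variable {L : Type*} [Field L]

/-- The series has no term below `r` and the coefficient `c` at `r`. -/
def Lead (x : L⸨X⸩) (r : ℤ) (c : L) : Prop :=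
  (∀ i < r, x.coeff i = 0) ∧ x.coeff r = c

theorem Lead.ne_zero {x : L⸨X⸩} {r : ℤ} {c : L} (h : Lead x r c) (hc : c ≠ 0) : x ≠ 0 :=
  fun e => hc (by rw [← h.2, e]; simp)

theorem Lead.order_eq {x : L⸨X⸩} {r : ℤ} {c : L} (h : Lead x r c) (hc : c ≠ 0) : x.order = r := by
  refine le_antisymm (order_le_of_coeff_ne_zero (by rwa [h.2])) (not_lt.1 fun hlt => ?_)
  exact h.ne_zero hc (coeff_order_eq_zero.1 (h.1 _ hlt))

theorem lead_order (x : L⸨X⸩) : Lead x x.order (x.coeff x.order) :=
  ⟨fun _ hi => coeff_eq_zero_of_lt_order hi, rfl⟩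

theorem Lead.mono {x : L⸨X⸩} {r r' : ℤ} {c : L} (h : Lead x r c) (hr : r' < r) : Lead x r' 0 :=
  ⟨fun i hi => h.1 i (hi.trans hr), h.1 r' hr⟩

theorem lead_zero (r : ℤ) : Lead (0 : L⸨X⸩) r 0 :=
  ⟨fun _ _ => by simp, by simp⟩

theorem lead_C (c : L) : Lead (HahnSeries.C c) 0 c :=
  ⟨fun i hi => by rw [C_apply, coeff_single_of_ne hi.ne], by rw [C_apply, coeff_single_same]⟩

theorem lead_one : Lead (1 : L⸨X⸩) 0 1 :=
  ⟨fun i hi => by rw [HahnSeries.coeff_one, if_neg hi.ne], by rw [HahnSeries.coeff_one, if_pos rfl]⟩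

theorem Lead.add {x y : L⸨X⸩} {r : ℤ} {c d : L} (hx : Lead x r c) (hy : Lead y r d) :
    Lead (x + y) r (c + d) :=
  ⟨fun i hi => by rw [HahnSeries.coeff_add, hx.1 i hi, hy.1 i hi, add_zero],
    by rw [HahnSeries.coeff_add, hx.2, hy.2]⟩

theorem Lead.neg {x : L⸨X⸩} {r : ℤ} {c : L} (hx : Lead x r c) : Lead (-x) r (-c) :=
  ⟨fun i hi => by rw [HahnSeries.coeff_neg, hx.1 i hi, neg_zero],
    by rw [HahnSeries.coeff_neg, hx.2]⟩

theorem Lead.add_lt {x y : L⸨X⸩} {r r' : ℤ} {c d : L} (hx : Lead x r c) (hy : Lead y r' d)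
    (h : r < r') : Lead (x + y) r c := by
  simpa using hx.add (hy.mono h)

theorem Lead.mul {x y : L⸨X⸩} {r s : ℤ} {c d : L} (hx : Lead x r c) (hy : Lead y s d) :
    Lead (x * y) (r + s) (c * d) := by
  constructor
  · intro i hi
    rw [HahnSeries.coeff_mul]
    refine Finset.sum_eq_zero fun ij hij => ?_
    simp only [Finset.mem_antidiagonal, HahnSeries.mem_support] at hij
    rcases lt_or_ge ij.1 r with h | h
    · rw [hx.1 _ h, zero_mul]
    · rw [hy.1 ij.2 (by omega), mul_zero]
  · rw [HahnSeries.coeff_mul, Finset.sum_eq_single (r, s)]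
    · rw [hx.2, hy.2]
    · intro ij hij hne
      simp only [Finset.mem_antidiagonal, HahnSeries.mem_support] at hij
      rcases lt_trichotomy ij.1 r with h | h | h
      · rw [hx.1 _ h, zero_mul]
      · exact absurd (Prod.ext h (by simp only; omega)) hne
      · rw [hy.1 ij.2 (by omega), mul_zero]
    · intro h
      simp only [Finset.mem_antidiagonal, HahnSeries.mem_support, not_and] at h
      by_cases h0 : x.coeff (r, s).1 = 0
      · rw [h0, zero_mul]
      · by_cases h1 : y.coeff (r, s).2 = 0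
        · rw [h1, mul_zero]
        · exact absurd trivial (h h0 h1)

theorem Lead.pow {x : L⸨X⸩} {r : ℤ} {c : L} (hx : Lead x r c) (j : ℕ) :
    Lead (x ^ j) (j * r) (c ^ j) := by
  induction j with
  | zero => simpa using lead_one
  | succ j ih =>
    rw [pow_succ, pow_succ, show ((j + 1 : ℕ) : ℤ) * r = j * r + r by push_cast; ring]
    exact ih.mul hx

theorem lead_prod {ι : Type*} (t : Finset ι) {x : ι → L⸨X⸩} {r : ι → ℤ} {c : ι → L}
    (h : ∀ i ∈ t, Lead (x i) (r i) (c i)) :
    Lead (∏ i ∈ t, x i) (∑ i ∈ t, r i) (∏ i ∈ t, c i) := by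
  classical
  induction t using Finset.induction with
  | empty => simpa using lead_one
  | insert a t ha ih =>
    rw [Finset.prod_insert ha, Finset.prod_insert ha, Finset.sum_insert ha]
    exact (h a (Finset.mem_insert_self _ _)).mul
      (ih fun i hi => h i (Finset.mem_insert_of_mem hi))

/-- The substitution `s ↦ w s`. -/
def rot (w : Lˣ) : L⸨X⸩ →+* L⸨X⸩ where
  toFun x :=
    { coeff := fun i => ((w ^ i : Lˣ) : L) * x.coeff i
      isPWO_support' := x.isPWO_support.mono fun i hi => right_ne_zero_of_mul hi }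
  map_zero' := by ext i; simp
  map_add' x y := by ext i; simp [mul_add]
  map_one' := by
    ext i
    by_cases h : i = 0 <;> simp [HahnSeries.coeff_one, h]
  map_mul' x y := by
    ext i
    simp only
    rw [HahnSeries.coeff_mul, HahnSeries.coeff_mul, Finset.mul_sum]
    refine Finset.sum_congr ?_ fun ij hij => ?_
    · ext ij
      simp [HahnSeries.mem_support, zpow_ne_zero]
    · simp only [Finset.mem_antidiagonal, HahnSeries.mem_support] at hij
      show ((w ^ i : Lˣ) : L) * _ = _
      rw [← hij.2.2, _root_.zpow_add, Units.val_mul]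
      ring

theorem coeff_rot (w : Lˣ) (x : L⸨X⸩) (i : ℤ) :
    (rot w x).coeff i = ((w ^ i : Lˣ) : L) * x.coeff i :=
  rfl

end Fermat.Agent.AbhyankarMoh
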