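import Fermat.Agent.AbhyankarMoh.Lead
import Mathlib.RingTheory.RootsOfUnity.PrimitiveRoots
import Mathlib.Algebra.Polynomial.Lifts
import Mathlib.Algebra.Polynomial.BigOperators
import Mathlib.Algebra.GCDMonoid.Finset
import Mathlib.Algebra.GCDMonoid.Nat
import Mathlib.Algebra.Field.Subfield.Basic

/-!
# The levels of a series with distinct conjugates

For a series `y` and a cut `e`, `dd e` is the gcd of `n` and the exponents below `e`, the
truncation has `per e = n / dd e` conjugates, `key e` is their product polynomial and `-delta e`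
its order at a generic point near the cut.
-/

set_option autoImplicit false

noncomputable section

open HahnSeries Polynomial
open scoped LaurentSeries

namespace Fermat.Agent.AbhyankarMoh

/-- A series together with a primitive root acting with distinct conjugates. -/
structure OnePlace (L : Type*) [Field L] where
  n : ℕ
  n_pos : 0 < n
  ζ : Lˣ
  hζ : IsPrimitiveRoot ζ n
  y : L⸨X⸩
  distinct : ∀ j : ℕ, rot (ζ ^ j) y = y → n ∣ j

namespace OnePlace

variable {L : Type*} [Field L] (c : OnePlace L)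

/-- The exponents below the cut. -/
def supp (e : ℤ) : Finset ℤ :=
  haveI := Classical.decPred fun i => c.y.coeff i ≠ 0
  (Finset.Ico c.y.order e).filter fun i => c.y.coeff i ≠ 0

theorem mem_supp {e i : ℤ} : i ∈ c.supp e ↔ i < e ∧ c.y.coeff i ≠ 0 := by
  classical
  simp only [supp, Finset.mem_filter, Finset.mem_Ico]
  exact ⟨fun h => ⟨h.1.2, h.2⟩,
    fun h => ⟨⟨not_lt.1 fun hlt => h.2 (coeff_eq_zero_of_lt_order hlt), h.1⟩, h.2⟩⟩

/-- The gcd of `n` and the exponents below the cut. -/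
def dd (e : ℤ) : ℕ := Nat.gcd c.n ((c.supp e).gcd Int.natAbs)

/-- The number of conjugates of the truncation. -/
def per (e : ℤ) : ℕ := c.n / c.dd e

theorem dd_pos (e : ℤ) : 0 < c.dd e := Nat.gcd_pos_of_pos_left _ c.n_pos

theorem per_mul_dd (e : ℤ) : c.per e * c.dd e = c.n :=
  Nat.div_mul_cancel (Nat.gcd_dvd_left _ _)

theorem per_pos (e : ℤ) : 0 < c.per e :=
  Nat.pos_of_ne_zero fun h => c.n_pos.ne' (by rw [← c.per_mul_dd e, h, zero_mul])

/-- The character `i ↦ ζ ^ (j i)`. -/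
theorem zpow_eq_one_iff (j : ℕ) (i : ℤ) :
    ((c.ζ ^ j) ^ i : Lˣ) = 1 ↔ c.n ∣ j * i.natAbs := by
  rw [← zpow_natCast, ← zpow_mul, c.hζ.zpow_eq_one_iff_dvd, Int.natCast_dvd, Int.natAbs_mul,
    Int.natAbs_natCast]

theorem per_dvd_iff (e : ℤ) (j : ℕ) :
    c.per e ∣ j ↔ ∀ i < e, c.y.coeff i ≠ 0 → ((c.ζ ^ j) ^ i : Lˣ) = 1 := by
  have h1 : c.per e ∣ j ↔ c.n ∣ j * c.dd e := by
    rw [← c.per_mul_dd e]
    exact (Nat.mul_dvd_mul_iff_right (c.dd_pos e)).symm
  rw [h1, dd, ← Nat.gcd_mul_left]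
  constructor
  · intro h i hi hy
    rw [zpow_eq_one_iff]
    exact h.trans ((Nat.gcd_dvd_right _ _).trans
      (mul_dvd_mul_left j (Finset.gcd_dvd (c.mem_supp.2 ⟨hi, hy⟩))))
  · intro h
    refine Nat.dvd_gcd (dvd_mul_left _ _) ?_
    rw [← normalize_eq j, ← Finset.gcd_mul_left]
    refine Finset.dvd_gcd fun i hi => ?_
    rw [← zpow_eq_one_iff]
    exact h i (c.mem_supp.1 hi).1 (c.mem_supp.1 hi).2

theorem dd_dvd {e i : ℤ} (hi : i < e) (hy : c.y.coeff i ≠ 0) : (c.dd e : ℤ) ∣ i :=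
  Int.natCast_dvd.2 ((Nat.gcd_dvd_right _ _).trans (Finset.gcd_dvd (c.mem_supp.2 ⟨hi, hy⟩)))

theorem dd_dvd_n (e : ℤ) : (c.dd e : ℤ) ∣ c.n := Int.natCast_dvd_natCast.2 (Nat.gcd_dvd_left _ _)

theorem dd_succ (e : ℤ) :
    (c.y.coeff e ≠ 0 → c.dd (e + 1) = Nat.gcd (c.dd e) e.natAbs) ∧
      (c.y.coeff e = 0 → c.dd (e + 1) = c.dd e) := by
  classical
  have key : ∀ i, i ∈ c.supp (e + 1) ↔ (i = e ∧ c.y.coeff e ≠ 0) ∨ i ∈ c.supp e := fun i => by
    rw [mem_supp, mem_supp]
    constructor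
    · rintro ⟨h1, h2⟩
      rcases eq_or_ne i e with rfl | h
      · exact Or.inl ⟨rfl, h2⟩
      · exact Or.inr ⟨by omega, h2⟩
    · rintro (⟨rfl, h2⟩ | ⟨h1, h2⟩)
      · exact ⟨by omega, h2⟩
      · exact ⟨by omega, h2⟩
  refine ⟨fun hy => ?_, fun hy => ?_⟩
  · have e1 : c.supp (e + 1) = insert e (c.supp e) :=
      Finset.ext fun i => by rw [key, Finset.mem_insert]; simp [hy]
    rw [dd, dd, e1, Finset.gcd_insert, Nat.gcd_assoc, gcd_eq_nat_gcd, Nat.gcd_comm e.natAbs]
  · have e1 : c.supp (e + 1) = c.supp e := Finset.ext fun i => by rw [key]; simp [hy]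
    rw [dd, dd, e1]

theorem per_succ_dvd (e : ℤ) : c.per e ∣ c.per (e + 1) :=
  (c.per_dvd_iff e _).2 fun i hi => (c.per_dvd_iff (e + 1) _).1 dvd_rfl i (by omega)

/-- The series with the same coefficients below the cut. -/
def Near (e : ℤ) (u : L⸨X⸩) : Prop := ∀ i < e, u.coeff i = c.y.coeff i

/-- The truncation. -/
def trunc (e : ℤ) : L⸨X⸩ := HahnSeries.truncLT e c.y

theorem near_trunc (e : ℤ) : c.Near e (c.trunc e) := fun _ hi => coeff_truncLT_of_lt hi _

theorem near_self (e : ℤ) : c.Near e c.y := fun _ _ => rfl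

theorem near_of_succ {e : ℤ} {u : L⸨X⸩} (h : c.Near (e + 1) u) : c.Near e u :=
  fun i hi => h i (by omega)

theorem near_rot {e : ℤ} {u : L⸨X⸩} (hu : c.Near e u) {j : ℕ} (hj : c.per e ∣ j) :
    c.Near e (rot (c.ζ ^ j) u) := by
  intro i hi
  rw [coeff_rot, hu i hi]
  by_cases hy : c.y.coeff i = 0
  · rw [hy, mul_zero]
  · rw [(c.per_dvd_iff e j).1 hj i hi hy, Units.val_one, one_mul]

/-- The order of `y` minus its `j`th conjugate. -/
def ord (j : ℕ) : ℤ := (c.y - rot (c.ζ ^ j) c.y).order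

/-- The leading coefficient of that difference. -/
def gap (j : ℕ) : L := (c.y - rot (c.ζ ^ j) c.y).coeff (c.ord j)

theorem ord_lt {e : ℤ} {j : ℕ} (hj : ¬c.per e ∣ j) : c.ord j < e ∧ c.gap j ≠ 0 := by
  have hne : c.y - rot (c.ζ ^ j) c.y ≠ 0 := by
    rw [sub_ne_zero]
    intro h
    exact hj (dvd_trans ⟨c.dd e, (c.per_mul_dd e).symm⟩ (c.distinct j h.symm))
  refine ⟨not_le.1 fun hle => hj ((c.per_dvd_iff e j).2 fun i hi hy => ?_),
    fun h => hne (coeff_order_eq_zero.1 h)⟩
  have h0 : (c.y - rot (c.ζ ^ j) c.y).coeff i = 0 := coeff_eq_zero_of_lt_order (hi.trans_le hle)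
  rw [HahnSeries.coeff_sub, coeff_rot, sub_eq_zero] at h0
  exact Units.ext (mul_right_cancel₀ hy (by rw [Units.val_one, one_mul]; exact h0.symm))

/-- **Separation** of distinct conjugates of the truncation. -/
theorem lead_sub_rot {e : ℤ} {j : ℕ} (hj : ¬c.per e ∣ j) {u v : L⸨X⸩} (hu : c.Near e u)
    (hv : c.Near e v) : Lead (u - rot (c.ζ ^ j) v) (c.ord j) (c.gap j) := by
  obtain ⟨hlt, -⟩ := c.ord_lt hj
  have key : ∀ i < e, (u - rot (c.ζ ^ j) v).coeff i = (c.y - rot (c.ζ ^ j) c.y).coeff i := by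
    intro i hi
    rw [HahnSeries.coeff_sub, HahnSeries.coeff_sub, coeff_rot, coeff_rot, hu i hi, hv i hi]
  exact ⟨fun i hi => by rw [key i (hi.trans hlt)]; exact coeff_eq_zero_of_lt_order hi,
    by rw [key _ hlt]; rfl⟩

theorem dd_dvd_ord {e : ℤ} {j : ℕ} (hj : ¬c.per e ∣ j) : (c.dd e : ℤ) ∣ c.ord j := by
  obtain ⟨hlt, hg⟩ := c.ord_lt hj
  refine c.dd_dvd hlt fun h => hg ?_
  rw [gap, HahnSeries.coeff_sub, coeff_rot, h]
  simp

theorem rot_rot (a b : Lˣ) (x : L⸨X⸩) : rot a (rot b x) = rot (a * b) x := by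
  ext i
  simp only [coeff_rot, mul_zpow, Units.val_mul, mul_assoc]

theorem ord_add {e : ℤ} {j q : ℕ} (hj : ¬c.per e ∣ j) :
    c.ord (c.per e * q + j) = c.ord j := by
  have h := c.lead_sub_rot hj (c.near_self e) (c.near_rot (c.near_self e) (dvd_mul_right _ q))
  rw [rot_rot, ← pow_add, add_comm j] at h
  exact h.order_eq (c.ord_lt hj).2

/-- `delta e + e`. -/
def total (e : ℤ) : ℤ := ∑ j ∈ Finset.range (c.per e), if j = 0 then 0 else -c.ord j

/-- Minus the order of the key polynomial. -/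
def delta (e : ℤ) : ℤ := c.total e - e

theorem dd_dvd_total (e : ℤ) : (c.dd e : ℤ) ∣ c.total e := by
  refine Finset.dvd_sum fun j hj => ?_
  split_ifs with h
  · exact dvd_zero _
  · exact dvd_neg.2 (c.dd_dvd_ord fun hd =>
      h (Nat.eq_zero_of_dvd_of_lt hd (Finset.mem_range.1 hj)))

theorem ord_per_mul {e : ℤ} {q : ℕ} (hq : ¬c.per (e + 1) ∣ c.per e * q) :
    c.ord (c.per e * q) = e := by
  obtain ⟨hlt, hg⟩ := c.ord_lt hq
  by_contra hne
  refine hg ?_
  rw [gap, HahnSeries.coeff_sub, sub_eq_zero]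
  exact (c.near_rot (c.near_self e) (dvd_mul_right _ q) _ (by omega)).symm

theorem sum_range_mul_eq {M : ℕ} (f : ℕ → ℤ) : ∀ N : ℕ,
    ∑ j ∈ Finset.range (M * N), f j = ∑ q ∈ Finset.range N, ∑ r ∈ Finset.range M, f (M * q + r)
  | 0 => by simp
  | N + 1 => by rw [Nat.mul_succ, Finset.sum_range_add, Finset.sum_range_succ, sum_range_mul_eq f N]

/-- The recursion of the totals. -/
theorem total_succ (e : ℤ) (N : ℕ) (hN : c.per (e + 1) = c.per e * N) :
    c.total (e + 1) = c.total e + ((N : ℤ) - 1) * c.delta e := by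
  have hN0 : 0 < N := Nat.pos_of_ne_zero fun h => (c.per_pos (e + 1)).ne' (by rw [hN, h, mul_zero])
  obtain ⟨N', rfl⟩ : ∃ N', N = N' + 1 := ⟨N - 1, by omega⟩
  rw [total, hN, sum_range_mul_eq, Finset.sum_range_succ', add_comm]
  congr 1
  · refine Finset.sum_congr rfl fun r _ => ?_
    simp
  · have hblock : ∀ q ∈ Finset.range N', (∑ r ∈ Finset.range (c.per e),
        if c.per e * (q + 1) + r = 0 then (0 : ℤ) else -c.ord (c.per e * (q + 1) + r)) =
          c.delta e := by
      intro q hq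
      have hpos := c.per_pos e
      have h0 : 0 ∈ Finset.range (c.per e) := Finset.mem_range.2 hpos
      have hne : ∀ r, c.per e * (q + 1) + r ≠ 0 := fun r => by positivity
      rw [delta, total, ← Finset.add_sum_erase _ _ h0, ← Finset.add_sum_erase _ _ h0,
        if_neg (hne 0), if_pos rfl, zero_add, add_zero, sub_eq_add_neg, add_comm]
      congr 1
      · refine Finset.sum_congr rfl fun r hr => ?_
        rw [Finset.mem_erase, Finset.mem_range] at hr
        rw [if_neg (hne r), if_neg hr.1,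
          c.ord_add fun hd => hr.1 (Nat.eq_zero_of_dvd_of_lt hd hr.2)]
      · rw [c.ord_per_mul]
        rw [hN, Nat.mul_dvd_mul_iff_left hpos]
        exact fun hd => absurd (Nat.le_of_dvd (by omega) hd)
          (by have := Finset.mem_range.1 hq; omega)
    rw [Finset.sum_congr rfl hblock]
    simp

/-- Series fixed by the rotation. -/
def fixedField : Subfield L⸨X⸩ := (rot c.ζ).eqLocusField (RingHom.id _)

theorem mem_fixedField {x : L⸨X⸩} : x ∈ c.fixedField ↔ rot c.ζ x = x := RingHom.mem_eqLocusField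

theorem n_dvd_of_coeff {x : L⸨X⸩} (hx : x ∈ c.fixedField) {i : ℤ} (hi : x.coeff i ≠ 0) :
    (c.n : ℤ) ∣ i := by
  rw [mem_fixedField] at hx
  have h := congrArg (fun t => HahnSeries.coeff t i) hx
  simp only [coeff_rot] at h
  rw [← c.hζ.zpow_eq_one_iff_dvd]
  exact Units.ext (mul_right_cancel₀ hi (by rw [h, Units.val_one, one_mul]))

/-- Evaluation of polynomials with fixed coefficients. -/
def ev (Q : c.fixedField[X]) (u : L⸨X⸩) : L⸨X⸩ := Q.eval₂ c.fixedField.subtype u

theorem rot_trunc_per (e : ℤ) : rot (c.ζ ^ c.per e) (c.trunc e) = c.trunc e := by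
  ext i
  by_cases hi : i < e
  · rw [c.near_rot (c.near_trunc e) dvd_rfl i hi, c.near_trunc e i hi]
  · rw [coeff_rot, trunc, coeff_truncLT_of_le (not_lt.1 hi), mul_zero]

/-- The product over the conjugates of the truncation. -/
def keySeries (e : ℤ) : (L⸨X⸩)[X] :=
  ∏ j ∈ Finset.range (c.per e), (Polynomial.X - Polynomial.C (rot (c.ζ ^ j) (c.trunc e)))

theorem keySeries_lifts (e : ℤ) : c.keySeries e ∈ Polynomial.lifts c.fixedField.subtype := by
  have hmap : (c.keySeries e).map (rot c.ζ) = c.keySeries e := by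
    set h : ℕ → (L⸨X⸩)[X] :=
      fun j => Polynomial.X - Polynomial.C (rot (c.ζ ^ j) (c.trunc e)) with hh
    have h1 : (c.keySeries e).map (rot c.ζ) = ∏ j ∈ Finset.range (c.per e), h (j + 1) := by
      rw [keySeries, Polynomial.map_prod]
      refine Finset.prod_congr rfl fun j _ => ?_
      rw [Polynomial.map_sub, Polynomial.map_X, Polynomial.map_C, hh, rot_rot, ← pow_succ']
    have h2 : h (c.per e) = h 0 := by
      simp only [hh, c.rot_trunc_per, pow_zero]
      congr 2
      ext i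
      simp [coeff_rot]
    have h3 := Finset.prod_range_succ h (c.per e)
    rw [Finset.prod_range_succ' h, h2] at h3
    rw [h1]
    exact mul_right_cancel₀ (Polynomial.X_sub_C_ne_zero _) h3
  rw [Polynomial.lifts_iff_coeff_lifts]
  intro m
  refine ⟨⟨(c.keySeries e).coeff m, c.mem_fixedField.2 ?_⟩, rfl⟩
  rw [← Polynomial.coeff_map, hmap]

theorem exists_key (e : ℤ) : ∃ P : c.fixedField[X],
    P.map c.fixedField.subtype = c.keySeries e ∧ P.natDegree = c.per e ∧ P.Monic := by
  have hm : (c.keySeries e).Monic := monic_prod_of_monic _ _ fun j _ => monic_X_sub_C _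
  obtain ⟨P, h1, h2, h3⟩ := lifts_and_natDegree_eq_and_monic (c.keySeries_lifts e) hm
  refine ⟨P, h1, ?_, h3⟩
  rw [h2, keySeries, natDegree_prod_of_monic _ _ fun j _ => monic_X_sub_C _]
  simp

/-- The key polynomial. -/
def key (e : ℤ) : c.fixedField[X] := (c.exists_key e).choose

theorem key_natDegree (e : ℤ) : (c.key e).natDegree = c.per e := (c.exists_key e).choose_spec.2.1

theorem key_monic (e : ℤ) : (c.key e).Monic := (c.exists_key e).choose_spec.2.2

/-- The constant in the leading term of the key polynomial. -/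
def keyConst (e : ℤ) : L := ∏ j ∈ (Finset.range (c.per e)).erase 0, c.gap j

theorem keyConst_ne_zero (e : ℤ) : c.keyConst e ≠ 0 := by
  refine Finset.prod_ne_zero_iff.2 fun j hj => ?_
  rw [Finset.mem_erase, Finset.mem_range] at hj
  exact (c.ord_lt (e := e) fun hd => hj.1 (Nat.eq_zero_of_dvd_of_lt hd hj.2)).2

/-- `key e` at a point near the cut. -/
theorem lead_key {e : ℤ} {u : L⸨X⸩} (hu : c.Near e u) :
    Lead (c.ev (c.key e) u) (-c.delta e) (c.keyConst e * u.coeff e) := by
  rw [ev, Polynomial.eval₂_eq_eval_map, key, (c.exists_key e).choose_spec.1, keySeries,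
    Polynomial.eval_prod]
  simp only [Polynomial.eval_sub, Polynomial.eval_X, Polynomial.eval_C]
  have h0 : 0 ∈ Finset.range (c.per e) := Finset.mem_range.2 (c.per_pos e)
  rw [← Finset.mul_prod_erase _ _ h0, mul_comm (c.keyConst e)]
  have hfirst : Lead (u - rot (c.ζ ^ 0) (c.trunc e)) e (u.coeff e) := by
    refine ⟨fun i hi => ?_, ?_⟩
    · simp [coeff_rot, c.near_trunc e i hi, hu i hi]
    · simp [coeff_rot, trunc]
  have hrest := lead_prod ((Finset.range (c.per e)).erase 0)
    (x := fun j => u - rot (c.ζ ^ j) (c.trunc e)) (r := c.ord) (c := c.gap) fun j hj => by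
      rw [Finset.mem_erase, Finset.mem_range] at hj
      exact c.lead_sub_rot (fun hd => hj.1 (Nat.eq_zero_of_dvd_of_lt hd hj.2)) hu (c.near_trunc e)
  have hδ : -c.delta e = e + ∑ j ∈ (Finset.range (c.per e)).erase 0, c.ord j := by
    rw [delta, total, ← Finset.add_sum_erase _ _ h0, if_pos rfl, zero_add,
      Finset.sum_congr rfl (fun j hj => if_neg (Finset.ne_of_mem_erase hj)),
      Finset.sum_neg_distrib]
    ring
  rw [hδ]
  exact hfirst.mul hrest

/-- The leading term at every point near the cut, for small degree. -/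
def Small (e : ℤ) : Prop :=
  ∀ Q : c.fixedField[X], Q ≠ 0 → Q.natDegree < c.per e →
    ∃ (r : ℤ) (a : L), a ≠ 0 ∧ (c.dd e : ℤ) ∣ r ∧ ∀ u, c.Near e u → Lead (c.ev Q u) r a

theorem small_of_le {e : ℤ} (he : e ≤ c.y.order) : c.Small e := by
  intro Q hQ hdeg
  have hs : c.supp e = ∅ := Finset.eq_empty_of_forall_notMem fun i hi =>
    (c.mem_supp.1 hi).2 (coeff_eq_zero_of_lt_order ((c.mem_supp.1 hi).1.trans_le he))
  have hd : c.dd e = c.n := by rw [dd, hs, Finset.gcd_empty, Nat.gcd_zero_right]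
  rw [per, hd, Nat.div_self c.n_pos, Nat.lt_one_iff] at hdeg
  have hne : ((Q.coeff 0 : c.fixedField) : L⸨X⸩) ≠ 0 := fun h => hQ (by
    rw [eq_C_of_natDegree_eq_zero hdeg, show Q.coeff 0 = 0 from Subtype.ext h, map_zero])
  have ha : ((Q.coeff 0 : c.fixedField) : L⸨X⸩).coeff (HahnSeries.order (Q.coeff 0).1) ≠ 0 :=
    fun h => hne (coeff_order_eq_zero.1 h)
  refine ⟨_, _, ha, hd ▸ c.n_dvd_of_coeff (Q.coeff 0).2 ha, fun u _ => ?_⟩
  rw [ev, eq_C_of_natDegree_eq_zero hdeg, eval₂_C]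
  simpa using lead_order ((Q.coeff 0 : c.fixedField) : L⸨X⸩)

theorem delta_dvd (e : ℤ) (hy : c.y.coeff e ≠ 0) : (c.dd (e + 1) : ℤ) ∣ c.delta e := by
  refine dvd_sub (dvd_trans ?_ (c.dd_dvd_total e)) (c.dd_dvd (by omega) hy)
  rw [(c.dd_succ e).1 hy]
  exact Int.natCast_dvd_natCast.2 (Nat.gcd_dvd_left _ _)

/-- Multiples `j δ` are not divisible by `dd e` for `0 < j < N`. -/
theorem dvd_of_dvd_mul_delta {e : ℤ} {N j : ℕ} (hy : c.y.coeff e ≠ 0)
    (hN : c.per (e + 1) = c.per e * N) (h : (c.dd e : ℤ) ∣ j * c.delta e) : N ∣ j := by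
  have h1 : (c.dd e : ℤ) ∣ j * e := by
    have e1 : (j : ℤ) * e = j * c.total e - j * c.delta e := by rw [delta]; ring
    rw [e1]
    exact dvd_sub (dvd_mul_of_dvd_right (c.dd_dvd_total e) _) h
  have h2 : c.per (e + 1) ∣ c.per e * j := by
    refine (c.per_dvd_iff _ _).2 fun i hi hyi => ?_
    rcases lt_or_eq_of_le (Int.lt_add_one_iff.1 hi) with hlt | rfl
    · exact (c.per_dvd_iff e _).1 (dvd_mul_right _ _) i hlt hyi
    · rw [c.zpow_eq_one_iff, mul_assoc, ← c.per_mul_dd i]
      rw [Int.natCast_dvd, Int.natAbs_mul, Int.natAbs_natCast] at h1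
      exact mul_dvd_mul_left _ h1
  rw [hN] at h2
  exact (Nat.mul_dvd_mul_iff_left (c.per_pos e)).1 h2

theorem small_succ {e : ℤ} (h : c.Small e) : c.Small (e + 1) := by
  obtain ⟨N, hN⟩ := c.per_succ_dvd e
  by_cases hN1 : N = 1
  · intro Q hQ hdeg
    rw [hN, hN1, mul_one] at hdeg
    obtain ⟨r, a, ha, hr, hl⟩ := h Q hQ hdeg
    have hdd : c.dd (e + 1) = c.dd e := by
      refine Nat.eq_of_mul_eq_mul_left (c.per_pos e) ?_
      conv_lhs => rw [show c.per e = c.per (e + 1) by rw [hN, hN1, mul_one]]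
      rw [c.per_mul_dd, c.per_mul_dd]
    exact ⟨r, a, ha, hdd ▸ hr, fun u hu => hl u (c.near_of_succ hu)⟩
  · have hy : c.y.coeff e ≠ 0 := fun hy => hN1 (by
      have : c.per (e + 1) = c.per e := by rw [per, per, (c.dd_succ e).2 hy]
      rw [hN] at this
      exact Nat.eq_of_mul_eq_mul_left (c.per_pos e) (by rw [this, mul_one]))
    have key : ∀ l ≤ N, ∀ Q : c.fixedField[X], Q ≠ 0 → Q.natDegree < l * c.per e →
        ∃ (r : ℤ) (a : L) (j : ℕ), j < l ∧ a ≠ 0 ∧ (c.dd e : ℤ) ∣ r + j * c.delta e ∧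
          ∀ u, c.Near (e + 1) u → Lead (c.ev Q u) r a := by
      intro l
      induction l with
      | zero => intro _ Q _ hdeg; simp at hdeg
      | succ l ih =>
        intro hl Q hQ hdeg
        have hm := c.key_monic e
        have hsplit := Polynomial.modByMonic_add_div Q (c.key e)
        have hP1 : c.key e ≠ 1 := fun he1 => by
          have := c.key_natDegree e
          rw [he1, natDegree_one] at this
          exact (c.per_pos e).ne this
        have hrem : Q %ₘ c.key e ≠ 0 →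
            ∃ (r : ℤ) (a : L), a ≠ 0 ∧ (c.dd e : ℤ) ∣ r ∧
              ∀ u, c.Near (e + 1) u → Lead (c.ev (Q %ₘ c.key e) u) r a := fun h0 => by
          obtain ⟨r, a, ha, hr, hl'⟩ := h _ h0
            (c.key_natDegree e ▸ natDegree_modByMonic_lt _ hm hP1)
          exact ⟨r, a, ha, hr, fun u hu => hl' u (c.near_of_succ hu)⟩
        have hquo : Q /ₘ c.key e ≠ 0 →
            ∃ (r : ℤ) (a : L) (j : ℕ), 0 < j ∧ j < l + 1 ∧ a ≠ 0 ∧
              (c.dd e : ℤ) ∣ r + j * c.delta e ∧
              ∀ u, c.Near (e + 1) u → Lead (c.ev (c.key e * (Q /ₘ c.key e)) u) r a := fun h0 => by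
          have hdeg' : (Q /ₘ c.key e).natDegree < l * c.per e := by
            rw [natDegree_divByMonic _ hm, c.key_natDegree]
            have hge : c.per e ≤ Q.natDegree := by
              by_contra hlt
              refine h0 ((divByMonic_eq_zero_iff hm).2 ?_)
              rw [degree_eq_natDegree hQ, degree_eq_natDegree hm.ne_zero, c.key_natDegree]
              exact_mod_cast Nat.not_le.1 hlt
            rw [Nat.succ_mul] at hdeg
            omega
          obtain ⟨r, a, j, hj, ha, hr, hl'⟩ := ih (by omega) _ h0 hdeg'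
          refine ⟨-c.delta e + r, c.keyConst e * c.y.coeff e * a, j + 1, j.succ_pos, by omega,
            mul_ne_zero (mul_ne_zero (c.keyConst_ne_zero e) hy) ha, ?_, fun u hu => ?_⟩
          · push_cast
            rw [show -c.delta e + r + ((j : ℤ) + 1) * c.delta e = r + j * c.delta e by ring]
            exact hr
          · rw [ev, eval₂_mul, ← hu e (by omega)]
            exact (c.lead_key (c.near_of_succ hu)).mul (hl' u hu)
        by_cases hq : Q /ₘ c.key e = 0
        · rw [hq, mul_zero, add_zero] at hsplit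
          rw [hsplit] at hrem
          obtain ⟨r, a, ha, hr, hl'⟩ := hrem hQ
          exact ⟨r, a, 0, l.succ_pos, ha, by simpa using hr, hl'⟩
        obtain ⟨r1, a1, j, hj0, hjl, ha1, hr1, hl1⟩ := hquo hq
        by_cases hrm : Q %ₘ c.key e = 0
        · rw [hrm, zero_add] at hsplit
          rw [hsplit] at hl1
          exact ⟨r1, a1, j, hjl, ha1, hr1, hl1⟩
        obtain ⟨r0, a0, ha0, hr0, hl0⟩ := hrem hrm
        have hev : ∀ u, c.ev Q u =
            c.ev (Q %ₘ c.key e) u + c.ev (c.key e * (Q /ₘ c.key e)) u := fun u => by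
          conv_lhs => rw [← hsplit]
          exact eval₂_add _ _
        rcases lt_trichotomy r0 r1 with hlt | heq | hlt
        · exact ⟨r0, a0, 0, l.succ_pos, ha0, by simpa using hr0,
            fun u hu => hev u ▸ (hl0 u hu).add_lt (hl1 u hu) hlt⟩
        · exfalso
          subst heq
          have := Nat.le_of_dvd hj0 (c.dvd_of_dvd_mul_delta hy hN ((dvd_add_right hr0).1 hr1))
          omega
        · exact ⟨r1, a1, j, hjl, ha1, hr1, fun u hu => by
            rw [hev u, add_comm]; exact (hl1 u hu).add_lt (hl0 u hu) hlt⟩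
    intro Q hQ hdeg
    rw [hN, mul_comm] at hdeg
    obtain ⟨r, a, j, -, ha, hr, hl⟩ := key N le_rfl Q hQ hdeg
    refine ⟨r, a, ha, ?_, hl⟩
    have hd : (c.dd (e + 1) : ℤ) ∣ (c.dd e : ℤ) := by
      rw [(c.dd_succ e).1 hy]; exact Int.natCast_dvd_natCast.2 (Nat.gcd_dvd_left _ _)
    exact (dvd_add_left (dvd_mul_of_dvd_right (c.delta_dvd e hy) _)).1 (hd.trans hr)

theorem small (e : ℤ) : c.Small e := by
  rcases le_total e c.y.order with h | h
  · exact c.small_of_le h
  · induction e, h using Int.leInduction with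
    | base => exact c.small_of_le le_rfl
    | succ e _ ih => exact c.small_succ ih

end OnePlace

end Fermat.Agent.AbhyankarMoh
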