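import Fermat.Agent.AbhyankarMoh.Roots
import Fermat.Agent.RittDecomposition.Series
import Mathlib.LinearAlgebra.Matrix.Charpoly.Basic
import Mathlib.LinearAlgebra.Matrix.Charpoly.Coeff
import Mathlib.LinearAlgebra.Matrix.ToLinearEquiv
import Mathlib.LinearAlgebra.Vandermonde
import Mathlib.RingTheory.MvPolynomial.Basic

/-!
# The degrees of generators of a polynomial ring in one variable

If `f(t)`, `g(t)` generate `K[t]` in characteristic zero, the branch at infinity of the curve
`t ↦ (f, g)` is a one place series whose totals are forced by unimodularity, hence one of the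
degrees divides the other.
-/

set_option autoImplicit false

noncomputable section

open HahnSeries Polynomial Matrix
open scoped LaurentSeries

namespace Fermat.Agent.AbhyankarMoh

/-- Twice the sum over unordered pairs. -/
theorem sum_sum_erase {n : ℕ} (d : Fin n → Fin n → ℤ) (hd : ∀ i j, d i j = d j i) :
    ∑ i, ∑ j ∈ Finset.univ.erase i, d i j = 2 * ∑ i, ∑ j ∈ Finset.Ioi i, d i j := by
  have h : ∀ i : Fin n, Finset.univ.erase i = Finset.Iio i ∪ Finset.Ioi i := fun i => by
    ext j
    simp [lt_or_lt_iff_ne]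
  have hdisj : ∀ i : Fin n, Disjoint (Finset.Iio i) (Finset.Ioi i) := fun i =>
    Finset.disjoint_left.2 fun j h1 h2 =>
      lt_asymm (Finset.mem_Iio.1 h1) (Finset.mem_Ioi.1 h2)
  rw [Finset.sum_congr rfl fun i _ => by rw [h i, Finset.sum_union (hdisj i)],
    Finset.sum_add_distrib, two_mul]
  congr 1
  rw [Finset.sum_comm' (t' := Finset.univ) (s' := fun j => Finset.Ioi j)]
  · exact Finset.sum_congr rfl fun j _ => Finset.sum_congr rfl fun i _ => hd i j
  · intro i j
    simp

section Series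

variable {L : Type*} [Field L]

theorem order_prod_eq {ι : Type*} (t : Finset ι) {x : ι → L⸨X⸩} (h : ∀ i ∈ t, x i ≠ 0) :
    (∏ i ∈ t, x i).order = ∑ i ∈ t, (x i).order := by
  refine (lead_prod t fun i _ => lead_order (x i)).order_eq
    (Finset.prod_ne_zero_iff.2 fun i hi => ?_)
  exact fun e => h i hi (coeff_order_eq_zero.1 e)

theorem order_rot (w : Lˣ) (x : L⸨X⸩) : (rot w x).order = x.order := by
  by_cases hx : x = 0
  · simp [hx]
  refine Lead.order_eq (c := ((w ^ x.order : Lˣ) : L) * x.coeff x.order)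
    ⟨fun i hi => ?_, coeff_rot w x _⟩ ?_
  · rw [coeff_rot, coeff_eq_zero_of_lt_order hi, mul_zero]
  · exact mul_ne_zero (Units.ne_zero _) fun e => hx (coeff_order_eq_zero.1 e)

theorem rot_C (w : Lˣ) (a : L) : rot w (HahnSeries.C a) = HahnSeries.C a := by
  ext i
  rcases eq_or_ne i 0 with rfl | h
  · simp [coeff_rot]
  · simp [coeff_rot, coeff_single_of_ne h]

theorem rot_one (x : L⸨X⸩) : rot 1 x = x := by
  ext i
  simp [coeff_rot]

end Series

/-- A branch at infinity of the curve `(f, g)`. -/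
structure Branch {K : Type*} [Field K] (f g : K[X]) (L : Type*) [Field L] where
  pos : 0 < f.natDegree
  ι : K →+* L
  ζ : Lˣ
  hζ : IsPrimitiveRoot ζ f.natDegree
  x : L⸨X⸩
  v : L
  hv : v ≠ 0
  lead_x : Lead x (-1) v
  eval_x : f.eval₂ ((HahnSeries.C : L →+* L⸨X⸩).comp ι) x =
    HahnSeries.single (-(f.natDegree : ℤ)) 1
  gen : ∃ Q : MvPolynomial (Fin 2) K, MvPolynomial.aeval ![f, g] Q = Polynomial.X

namespace Branch

variable {K : Type*} [Field K] {f g : K[X]} {L : Type*} [Field L] (b : Branch f g L)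

/-- Evaluation at the branch. -/
def E : K[X] →+* L⸨X⸩ := eval₂RingHom ((HahnSeries.C : L →+* L⸨X⸩).comp b.ι) b.x

theorem E_C (a : K) : b.E (Polynomial.C a) = HahnSeries.C (b.ι a) := by simp [E]

theorem E_X : b.E Polynomial.X = b.x := by simp [E]

/-- The conjugate evaluations. -/
def conj (j : ℕ) : K[X] →+* L⸨X⸩ := (rot (b.ζ ^ j)).comp b.E

theorem conj_zero (p : K[X]) : b.conj 0 p = b.E p := by simp [conj, rot_one]

/-- The values of `p` at infinity. -/
theorem lead_E : ∀ (k : ℕ) (p : K[X]), p.natDegree ≤ k →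
    Lead (b.E p) (-(k : ℤ)) (b.ι (p.coeff k) * b.v ^ k) := by
  intro k p hp
  have h : b.E p = (∑ i ∈ Finset.range k, b.E (Polynomial.C (p.coeff i)) * b.x ^ i) +
      b.E (Polynomial.C (p.coeff k)) * b.x ^ k := by
    conv_lhs => rw [p.as_sum_range_C_mul_X_pow' (Nat.lt_succ_of_le hp)]
    simp [map_sum, Finset.sum_range_succ, E_X]
  have hl : ∀ i, Lead (b.E (Polynomial.C (p.coeff i)) * b.x ^ i) (-(i : ℤ))
      (b.ι (p.coeff i) * b.v ^ i) := fun i => by
    simpa [E_C] using (lead_C (b.ι (p.coeff i))).mul (b.lead_x.pow i)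
  rw [h, add_comm]
  have hsum : Lead (∑ i ∈ Finset.range k, b.E (Polynomial.C (p.coeff i)) * b.x ^ i) (-(k : ℤ)) 0 :=
    Finset.sum_induction _ (fun z => Lead z (-(k : ℤ)) 0)
      (fun _ _ ha hb => by simpa using ha.add hb) (lead_zero _)
      fun i hi => (hl i).mono (by have := Finset.mem_range.1 hi; omega)
  simpa using (hl k).add hsum

theorem order_E {p : K[X]} (hp : p ≠ 0) : (b.E p).order = -(p.natDegree : ℤ) ∧ b.E p ≠ 0 := by
  have h := b.lead_E _ p le_rfl
  have hc : b.ι (p.coeff p.natDegree) * b.v ^ p.natDegree ≠ 0 :=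
    mul_ne_zero ((map_ne_zero b.ι).2 (leadingCoeff_ne_zero.2 hp)) (pow_ne_zero _ b.hv)
  exact ⟨h.order_eq hc, h.ne_zero hc⟩

theorem order_E_nonpos (p : K[X]) : (b.E p).order ≤ 0 := by
  by_cases hp : p = 0
  · simp [hp]
  · rw [(b.order_E hp).1]; omega

theorem E_injective : Function.Injective b.E := by
  rw [injective_iff_map_eq_zero]
  exact fun p hp => by_contra fun h => (b.order_E h).2 hp

/-- The coefficient embedding `X ↦ s⁻ⁿ`. -/
def hom0 : K[X] →+* L⸨X⸩ := b.E.comp (compRingHom f)

theorem hom0_apply (p : K[X]) : b.hom0 p = b.E (p.comp f) := rfl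

theorem rot_pow_n (z : L⸨X⸩) (j : ℕ) (hj : f.natDegree ∣ j) : rot (b.ζ ^ j) z = z := by
  rw [(b.hζ.pow_eq_one_iff_dvd j).2 hj, rot_one]

theorem rot_hom0 (w : ℕ) : (rot (b.ζ ^ w)).comp b.hom0 = b.hom0 := by
  refine Polynomial.ringHom_ext (fun a => ?_) ?_
  · simp only [RingHom.comp_apply, hom0_apply, C_comp, E_C, rot_C]
  · simp only [RingHom.comp_apply, hom0_apply, X_comp]
    rw [show b.E f = HahnSeries.single (-(f.natDegree : ℤ)) 1 from b.eval_x]
    ext i
    rcases eq_or_ne i (-(f.natDegree : ℤ)) with rfl | h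
    · rw [coeff_rot, coeff_single_same, mul_one, ← zpow_natCast b.ζ w, ← zpow_mul,
        (b.hζ.zpow_eq_one_iff_dvd _).2 (dvd_mul_of_dvd_right (dvd_neg.2 dvd_rfl) _),
        Units.val_one]
    · rw [coeff_rot, coeff_single_of_ne h, mul_zero]

theorem conj_comp (j : ℕ) (p : K[X]) : b.conj j (p.comp f) = b.hom0 p :=
  DFunLike.congr_fun (b.rot_hom0 j) p

/-- Two evaluations agreeing at `g` agree everywhere. -/
theorem conj_eq_of_g {i j : ℕ} (h : b.conj i g = b.conj j g) : b.conj i = b.conj j := by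
  obtain ⟨Q, hQ⟩ := b.gen
  have hf : b.conj i f = b.conj j f := by
    have h1 := b.conj_comp i Polynomial.X
    have h2 := b.conj_comp j Polynomial.X
    rw [X_comp] at h1 h2
    rw [h1, h2]
  have hC : ∀ a, b.conj i (Polynomial.C a) = b.conj j (Polynomial.C a) := fun a => by
    simp only [conj, RingHom.comp_apply, E_C, rot_C]
  have key : (b.conj i).comp (MvPolynomial.aeval (R := K) ![f, g]).toRingHom =
      (b.conj j).comp (MvPolynomial.aeval (R := K) ![f, g]).toRingHom := by
    refine MvPolynomial.ringHom_ext (fun a => by simpa using hC a) fun k => ?_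
    fin_cases k
    · simpa using hf
    · simpa using h
  refine Polynomial.ringHom_ext hC ?_
  rw [← hQ]
  have h := DFunLike.congr_fun key Q
  simpa only [RingHom.comp_apply, AlgHom.toRingHom_eq_coe, RingHom.coe_coe] using h

theorem conj_X_sub (i j : ℕ) :
    Lead (b.conj j Polynomial.X - b.conj i Polynomial.X) (-1)
      (((((b.ζ ^ j) ^ (-1 : ℤ) : Lˣ) : L) - (((b.ζ ^ i) ^ (-1 : ℤ) : Lˣ) : L)) * b.v) := by
  refine ⟨fun k hk => ?_, ?_⟩
  · simp [conj, E_X, coeff_rot, b.lead_x.1 k hk]
  · simp [conj, E_X, coeff_rot, b.lead_x.2, sub_mul]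

theorem conj_injective : Function.Injective fun j : Fin f.natDegree => b.conj (j : ℕ) g := by
  intro i j h
  have h1 := DFunLike.congr_fun (b.conj_eq_of_g h) Polynomial.X
  have h2 := (b.conj_X_sub (j : ℕ) (i : ℕ)).2
  rw [h1, sub_self, HahnSeries.coeff_zero] at h2
  have h3 := (mul_eq_zero.1 h2.symm).resolve_right b.hv
  rw [sub_eq_zero, Units.val_inj, zpow_neg_one, zpow_neg_one, _root_.inv_inj] at h3
  exact Fin.ext (b.hζ.pow_inj i.2 j.2 h3)

/-- The one place series of `g`. -/
def onePlace : OnePlace L where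
  n := f.natDegree
  n_pos := b.pos
  ζ := b.ζ
  hζ := b.hζ
  y := b.E g
  distinct := fun j hj => by
    have hmod : rot (b.ζ ^ (j % f.natDegree)) (b.E g) = b.E g := by
      have e : b.ζ ^ j = b.ζ ^ (j % f.natDegree) := by
        conv_lhs => rw [← Nat.mod_add_div j f.natDegree, pow_add, pow_mul, b.hζ.pow_eq_one,
          one_pow, mul_one]
      rw [← e]; exact hj
    exact Nat.dvd_of_mod_eq_zero (congrArg Fin.val (b.conj_injective
      (a₁ := ⟨j % f.natDegree, Nat.mod_lt _ b.pos⟩) (a₂ := ⟨0, b.pos⟩)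
      (hmod.trans (b.conj_zero g).symm)))

/-- The coefficients land in the fixed field. -/
def hom : K[X] →+* b.onePlace.fixedField :=
  b.hom0.codRestrict _ fun p => b.onePlace.mem_fixedField.2 (by
    have := DFunLike.congr_fun (b.rot_hom0 1) p
    rw [pow_one] at this
    exact this)

theorem subtype_comp_hom : b.onePlace.fixedField.subtype.comp b.hom = b.hom0 := rfl

theorem eval₂_hom0 (G : K[X][X]) (j : ℕ) :
    G.eval₂ b.hom0 (b.conj j g) = b.conj j (G.eval₂ (compRingHom f) g) := by
  rw [Polynomial.hom_eval₂]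
  congr 1
  exact RingHom.ext fun p => (b.conj_comp j p).symm

/-- A monic relation of degree `n`. -/
theorem exists_relation : ∃ Φ : K[X][X], IsMonicOfDegree Φ f.natDegree ∧
    ∀ j, (Φ.map b.hom0).eval (b.conj j g) = 0 := by
  have hexp := fun i : Fin f.natDegree =>
    RittDecomposition.FullCycle.exists_expansion b.pos (g * Polynomial.X ^ (i : ℕ))
  choose a ha using hexp
  set A : Matrix (Fin f.natDegree) (Fin f.natDegree) K[X] := Matrix.of fun i l => a i (l : ℕ)
    with hA
  refine ⟨A.charpoly, ⟨?_, A.charpoly_monic⟩, fun j => ?_⟩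
  · rw [A.charpoly_natDegree_eq_dim, Fintype.card_fin]
  rw [← Matrix.charpoly_map, Matrix.eval_charpoly, ← Matrix.exists_mulVec_eq_zero_iff]
  refine ⟨fun l => b.conj j Polynomial.X ^ (l : ℕ), fun h => ?_, funext fun i => ?_⟩
  · simpa using congrFun h ⟨0, b.pos⟩
  · have h := congrArg (b.conj j) (ha i)
    simp only [map_mul, map_pow, map_sum, conj_comp] at h
    rw [Finset.sum_range] at h
    rw [Matrix.sub_mulVec, Pi.sub_apply, Matrix.scalar_apply, Matrix.mulVec_diagonal,
      Pi.zero_apply, h, sub_eq_zero]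
    simp [Matrix.mulVec, dotProduct, hA]

theorem exists_reduced {Φ : K[X][X]} (hΦ : IsMonicOfDegree Φ f.natDegree)
    (hz : ∀ j, (Φ.map b.hom0).eval (b.conj j g) = 0) (p : K[X]) :
    ∃ G : K[X][X], G.natDegree < f.natDegree ∧ G.eval₂ (compRingHom f) g = p := by
  obtain ⟨Q, hQ⟩ := b.gen
  have hzero : Φ.eval₂ (compRingHom f) g = 0 := b.E_injective (by
    rw [map_zero, ← b.conj_zero, ← b.eval₂_hom0, Polynomial.eval₂_eq_eval_map]
    exact hz 0)
  obtain ⟨G, hG⟩ : ∃ G : K[X][X], G.eval₂ (compRingHom f) g = Polynomial.X := by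
    rw [← hQ]
    clear hQ
    induction Q using MvPolynomial.induction_on with
    | C a => exact ⟨Polynomial.C (Polynomial.C a), by simp⟩
    | add p q hp hq =>
      obtain ⟨G₁, h₁⟩ := hp
      obtain ⟨G₂, h₂⟩ := hq
      exact ⟨G₁ + G₂, by rw [eval₂_add, map_add, h₁, h₂]⟩
    | mul_X p k hp =>
      obtain ⟨G₁, h₁⟩ := hp
      refine ⟨G₁ * ![Polynomial.C Polynomial.X, Polynomial.X] k, ?_⟩
      rw [eval₂_mul, map_mul, h₁, MvPolynomial.aeval_X]
      congr 1
      fin_cases k <;> simp
  set P : K[X][X] := p.eval₂ ((Polynomial.C (R := K[X])).comp Polynomial.C) G with hP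
  have hPp : P.eval₂ (compRingHom f) g = p := by
    rw [← coe_eval₂RingHom, hP, Polynomial.hom_eval₂, coe_eval₂RingHom, hG]
    conv_rhs => rw [← eval₂_C_X (p := p)]
    congr 1
    exact RingHom.ext fun a => by simp
  refine ⟨P %ₘ Φ, ?_, ?_⟩
  · have h1 : Φ ≠ 1 := fun e => by
      have := hΦ.natDegree_eq
      rw [e, natDegree_one] at this
      exact b.pos.ne this
    exact hΦ.natDegree_eq ▸ natDegree_modByMonic_lt _ hΦ.monic h1
  · conv_rhs => rw [← hPp, ← Polynomial.modByMonic_add_div P Φ]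
    rw [eval₂_add, eval₂_mul, hzero, zero_mul, add_zero]

theorem isRootPoly {Φ : K[X][X]} (hΦ : IsMonicOfDegree Φ f.natDegree)
    (hz : ∀ j, (Φ.map b.hom0).eval (b.conj j g) = 0) :
    Φ.map b.hom0 = ∏ j ∈ Finset.range f.natDegree,
      (Polynomial.X - Polynomial.C (b.conj j g)) := by
  have h1 : IsMonicOfDegree (Φ.map b.hom0) f.natDegree :=
    ⟨by rw [hΦ.monic.natDegree_map, hΦ.natDegree_eq], hΦ.monic.map _⟩
  have h2 : IsMonicOfDegree (∏ j ∈ Finset.range f.natDegree,
      (Polynomial.X - Polynomial.C (b.conj j g))) f.natDegree :=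
    ⟨by rw [natDegree_prod_of_monic _ _ fun j _ => monic_X_sub_C _]; simp,
      monic_prod_of_monic _ _ fun j _ => monic_X_sub_C _⟩
  refine sub_eq_zero.1 (eq_zero_of_natDegree_lt_card_of_eval_eq_zero _ b.conj_injective
    (fun i => ?_) ?_)
  · rw [eval_sub, hz, eval_prod, Finset.prod_eq_zero (Finset.mem_range.2 i.2) (by simp), sub_zero]
  · rw [Fintype.card_fin]
    exact IsMonicOfDegree.natDegree_sub_lt b.pos.ne' h1 h2

theorem order_conj_sub_sum {Φ : K[X][X]} (hΦ : IsMonicOfDegree Φ f.natDegree)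
    (hz : ∀ j, (Φ.map b.hom0).eval (b.conj j g) = 0) (i : Fin f.natDegree) :
    ∑ j ∈ Finset.univ.erase i, (b.conj (i : ℕ) g - b.conj (j : ℕ) g).order =
      (b.E (Φ.derivative.eval₂ (compRingHom f) g)).order := by
  rw [← order_prod_eq _ fun j hj =>
      sub_ne_zero.2 fun e => Finset.ne_of_mem_erase hj (b.conj_injective e.symm),
    ← order_rot (b.ζ ^ (i : ℕ)) (b.E _)]
  congr 1
  rw [show rot (b.ζ ^ (i : ℕ)) (b.E (Φ.derivative.eval₂ (compRingHom f) g)) =
      b.conj (i : ℕ) (Φ.derivative.eval₂ (compRingHom f) g) from rfl, ← b.eval₂_hom0,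
    Polynomial.eval₂_eq_eval_map, ← derivative_map, b.isRootPoly hΦ hz, Finset.prod_range,
    derivative_prod_finset, eval_finsetSum, Finset.sum_eq_single i]
  · simp [eval_prod]
  · intro j _ hj
    simp [eval_prod, Finset.prod_eq_zero (Finset.mem_erase.2 ⟨hj.symm, Finset.mem_univ i⟩)]
  · simp

/-- The discriminant computation. -/
theorem sum_ord {Φ : K[X][X]} (hΦ : IsMonicOfDegree Φ f.natDegree)
    (hz : ∀ j, (Φ.map b.hom0).eval (b.conj j g) = 0) :
    ∑ j ∈ (Finset.range f.natDegree).erase 0, b.onePlace.ord j = 1 - f.natDegree := by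
  have hexp := fun k : Fin f.natDegree =>
    RittDecomposition.FullCycle.exists_expansion b.pos (g ^ (k : ℕ))
  choose c hc using hexp
  choose G hGd hG using fun l : Fin f.natDegree => b.exists_reduced hΦ hz (Polynomial.X ^ (l : ℕ))
  set C1 : Matrix (Fin f.natDegree) (Fin f.natDegree) K[X] :=
    Matrix.of fun k l => c k (l : ℕ) with hC1
  set D1 : Matrix (Fin f.natDegree) (Fin f.natDegree) K[X] :=
    Matrix.of fun l k => (G l).coeff (k : ℕ) with hD1
  set Wy : Matrix (Fin f.natDegree) (Fin f.natDegree) L⸨X⸩ :=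
    Matrix.vandermonde fun j => b.conj (j : ℕ) g with hWy
  set Wx : Matrix (Fin f.natDegree) (Fin f.natDegree) L⸨X⸩ :=
    Matrix.vandermonde fun j => b.conj (j : ℕ) Polynomial.X with hWx
  have hy : Wy = Wx * (C1.map b.hom0)ᵀ := by
    refine Matrix.ext fun j k => ?_
    have h := congrArg (b.conj (j : ℕ)) (hc k)
    simp only [map_mul, map_pow, map_sum, conj_comp] at h
    rw [Finset.sum_range] at h
    simp [hWy, hWx, Matrix.mul_apply, h, hC1, mul_comm]
  have hx : Wx = Wy * (D1.map b.hom0)ᵀ := by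
    refine Matrix.ext fun j l => ?_
    have h := congrArg (b.conj (j : ℕ)) (hG l)
    rw [← b.eval₂_hom0, eval₂_eq_sum_range' _ (hGd l), map_pow, Finset.sum_range] at h
    simp [hWy, hWx, Matrix.mul_apply, ← h, hD1, mul_comm]
  have hdy : Wy.det = Wx.det * b.hom0 C1.det := by
    rw [hy, det_mul, det_transpose, RingHom.map_det]; rfl
  have hdx : Wx.det = Wy.det * b.hom0 D1.det := by
    rw [hx, det_mul, det_transpose, RingHom.map_det]; rfl
  have hdX : ∀ i j : Fin f.natDegree, i ≠ j →
      (b.conj (j : ℕ) Polynomial.X - b.conj (i : ℕ) Polynomial.X).order = -1 := fun i j hij => by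
    refine (b.conj_X_sub _ _).order_eq (mul_ne_zero (sub_ne_zero.2 fun h => hij ?_) b.hv)
    rw [Units.val_inj, zpow_neg_one, zpow_neg_one, _root_.inv_inj] at h
    exact Fin.ext (b.hζ.pow_inj j.2 i.2 h).symm
  have hdY : ∀ i j : Fin f.natDegree, i ≠ j → b.conj (j : ℕ) g - b.conj (i : ℕ) g ≠ 0 :=
    fun i j hij =>
    sub_ne_zero.2 fun e => hij (b.conj_injective e).symm
  have hX0 : ∀ i j : Fin f.natDegree, i ≠ j →
      b.conj (j : ℕ) Polynomial.X - b.conj (i : ℕ) Polynomial.X ≠ 0 := fun i j hij e => by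
    have := hdX i j hij
    rw [e, HahnSeries.order_zero] at this
    omega
  have hu : (b.hom0 C1.det).order = 0 := by
    have hWx0 : Wx.det ≠ 0 := by
      rw [hWx, det_vandermonde]
      exact Finset.prod_ne_zero_iff.2 fun i _ => Finset.prod_ne_zero_iff.2 fun j hj =>
        hX0 i j (Finset.mem_Ioi.1 hj).ne
    have h1 : b.hom0 C1.det * b.hom0 D1.det = 1 := by
      refine mul_left_cancel₀ hWx0 ?_
      rw [mul_one, ← mul_assoc, ← hdy, ← hdx]
    have h2 := congrArg HahnSeries.order h1
    rw [HahnSeries.order_mul (left_ne_zero_of_mul_eq_one h1) (right_ne_zero_of_mul_eq_one h1),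
      HahnSeries.order_one] at h2
    have ha := b.order_E_nonpos (C1.det.comp f)
    have hb := b.order_E_nonpos (D1.det.comp f)
    rw [← hom0_apply] at ha hb
    omega
  have hord : Wy.det.order = Wx.det.order := by
    have hWy0 : Wy.det ≠ 0 := by
      rw [hWy, det_vandermonde]
      exact Finset.prod_ne_zero_iff.2 fun i _ => Finset.prod_ne_zero_iff.2 fun j hj =>
        hdY i j (Finset.mem_Ioi.1 hj).ne
    rw [hdy] at hWy0
    rw [hdy, HahnSeries.order_mul (left_ne_zero_of_mul hWy0) (right_ne_zero_of_mul hWy0), hu,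
      add_zero]
  have hdet : ∀ v : Fin f.natDegree → L⸨X⸩, (∀ i j, i ≠ j → v j - v i ≠ 0) →
      2 * (Matrix.vandermonde v).det.order =
        ∑ i, ∑ j ∈ Finset.univ.erase i, (v i - v j).order := fun v hv => by
    rw [det_vandermonde, order_prod_eq _ fun i _ => Finset.prod_ne_zero_iff.2 fun j hj =>
      hv i j (Finset.mem_Ioi.1 hj).ne,
      sum_sum_erase (fun i j => (v i - v j).order) fun i j => by rw [← neg_sub, order_neg]]
    congr 1
    refine Finset.sum_congr rfl fun i _ => ?_
    rw [order_prod_eq _ fun j hj => hv i j (Finset.mem_Ioi.1 hj).ne]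
    exact Finset.sum_congr rfl fun j _ => by rw [← neg_sub, order_neg]
  have hY := hdet _ hdY
  have hX := hdet _ hX0
  rw [← hWy, hord] at hY
  rw [← hWx, hY, Finset.sum_congr rfl fun i (_ : i ∈ (Finset.univ : Finset (Fin f.natDegree))) =>
      Finset.sum_congr rfl fun j (hj : j ∈ Finset.univ.erase i) =>
        hdX j i (Finset.ne_of_mem_erase hj)] at hX
  rw [Finset.sum_congr rfl fun i _ => b.order_conj_sub_sum hΦ hz i] at hX
  simp only [Finset.sum_const, Finset.card_univ, Fintype.card_fin,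
    Finset.card_erase_of_mem (Finset.mem_univ _), nsmul_eq_mul, Nat.cast_sub b.pos,
    Nat.cast_one] at hX
  have hX' : (b.E (Φ.derivative.eval₂ (compRingHom f) g)).order = ((f.natDegree : ℤ) - 1) * -1 :=
    mul_left_cancel₀ (Nat.cast_ne_zero.2 b.pos.ne') hX
  rw [show (1 : ℤ) - f.natDegree = ((f.natDegree : ℤ) - 1) * -1 by ring, ← hX',
    ← b.order_conj_sub_sum hΦ hz ⟨0, b.pos⟩]
  have himg : (Finset.range f.natDegree).erase 0 =
      ((Finset.univ : Finset (Fin f.natDegree)).erase ⟨0, b.pos⟩).map Fin.valEmbedding := by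
    ext j
    simp only [Finset.mem_erase, Finset.mem_range, Finset.mem_map, Finset.mem_univ, and_true,
      Fin.valEmbedding_apply]
    exact ⟨fun h => ⟨⟨j, h.2⟩, fun e => h.1 (congrArg Fin.val e), rfl⟩,
      by rintro ⟨i, hi, rfl⟩; exact ⟨fun e => hi (Fin.ext e), i.2⟩⟩
  rw [himg, Finset.sum_map]
  refine Finset.sum_congr rfl fun j _ => ?_
  simp [OnePlace.ord, onePlace, conj, rot_one]

end Branch

variable {K : Type*} [Field K] [CharZero K]

/-- **Abhyankar–Moh**: if two polynomials generate `K[t]` and are not constant, the degree of one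
divides the degree of the other. -/
theorem natDegree_dvd_or_dvd {f g : K[X]} (hf : 0 < f.natDegree)
    (h : ∃ Q : MvPolynomial (Fin 2) K, MvPolynomial.aeval ![f, g] Q = Polynomial.X) :
    f.natDegree ∣ g.natDegree ∨ g.natDegree ∣ f.natDegree := by
  set L := AlgebraicClosure K
  have : NeZero (f.natDegree : L) := ⟨Nat.cast_ne_zero.2 hf.ne'⟩
  have : NeZero f.natDegree := ⟨hf.ne'⟩
  obtain ⟨ζ, hζ⟩ := HasEnoughRootsOfUnity.exists_primitiveRoot L f.natDegree
  obtain ⟨v, hv0, hv⟩ := RittDecomposition.exists_series f hf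
  have hlead : Lead (HahnSeries.ofPowerSeries ℤ L v * HahnSeries.single (-1) 1) (-1)
      (PowerSeries.constantCoeff v) := by
    have h1 : Lead (HahnSeries.ofPowerSeries ℤ L v) 0 (PowerSeries.constantCoeff v) :=
      ⟨fun i hi => by rw [PowerSeries.coeff_coe, if_pos hi],
        by rw [PowerSeries.coeff_coe, if_neg (lt_irrefl _)]; simp⟩
    have h2 : Lead (HahnSeries.single (-1 : ℤ) (1 : L)) (-1) 1 :=
      ⟨fun i hi => coeff_single_of_ne hi.ne, coeff_single_same _ _⟩
    simpa using h1.mul h2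
  let b : Branch f g L :=
    { pos := hf
      ι := algebraMap K L
      ζ := (hζ.isUnit hf.ne').unit
      hζ := hζ.isUnit_unit hf.ne'
      x := HahnSeries.ofPowerSeries ℤ L v * HahnSeries.single (-1) 1
      v := PowerSeries.constantCoeff v
      hv := hv0
      lead_x := hlead
      gen := h
      eval_x := by
        have hs : ∀ i ∈ Finset.range (f.natDegree + 1),
            (HahnSeries.C : L →+* L⸨X⸩) (algebraMap K L (f.coeff i)) *
              (HahnSeries.ofPowerSeries ℤ L v * HahnSeries.single (-1) 1) ^ i =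
            HahnSeries.ofPowerSeries ℤ L (PowerSeries.C (algebraMap K L (f.coeff i)) *
              (v ^ i * PowerSeries.X ^ (f.natDegree - i))) *
              HahnSeries.single (-(f.natDegree : ℤ)) 1 := fun i hi => by
          have hi' := Finset.mem_range.1 hi
          simp only [map_mul, map_pow, HahnSeries.ofPowerSeries_C, HahnSeries.ofPowerSeries_X,
            mul_pow, HahnSeries.single_pow, one_pow, mul_assoc, HahnSeries.single_mul_single,
            mul_one, nsmul_eq_mul]
          congr 4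
          omega
        rw [Polynomial.eval₂_eq_sum_range]
        simp only [RingHom.comp_apply]
        rw [Finset.sum_congr rfl hs, ← Finset.sum_mul, ← map_sum, hv, map_one, one_mul] }
  obtain ⟨Φ, hΦ, hz⟩ := b.exists_relation
  let m : b.onePlace.Model :=
    { A := K[X]
      hom := b.hom
      isUnit := fun d hd => by
        rw [← Polynomial.C_eq_natCast]
        exact Polynomial.isUnit_C.2 (isUnit_iff_ne_zero.2 (Nat.cast_ne_zero.2 hd))
      poly := Φ
      monic := hΦ
      isRootPoly := by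
        rw [OnePlace.IsRootPoly, Polynomial.map_map, b.subtype_comp_hom, b.isRootPoly hΦ hz]
        rfl
      order_nonpos := fun G => by
        rw [OnePlace.ev, Polynomial.eval₂_map, b.subtype_comp_hom,
          show b.onePlace.y = b.conj 0 g from (b.conj_zero g).symm, b.eval₂_hom0, b.conj_zero]
        exact b.order_E_nonpos _ }
  have hd := m.order_dvd (b.sum_ord hΦ hz)
  have hy : b.onePlace.y.order = -(g.natDegree : ℤ) := by
    by_cases hg : g = 0
    · simp [Branch.onePlace, hg]
    · exact (b.order_E hg).1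
  rw [hy, Int.dvd_neg, Int.neg_dvd] at hd
  exact hd.imp Int.natCast_dvd_natCast.1 Int.natCast_dvd_natCast.1

end Fermat.Agent.AbhyankarMoh
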