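import Fermat.Agent.AbhyankarMoh.Main
import Fermat.Agent.JungVanDerKulk.Main

/-!
# Rectification of embedded lines

An embedding of the line in the plane is carried to an axis by an automorphism of the plane.
-/

set_option autoImplicit false

noncomputable section

open MvPolynomial

namespace Fermat.Agent.AbhyankarMoh

open Fermat.Agent.JungVanDerKulk (shear swapVar)

variable {K : Type*} [Field K]

/-- The pair `(f, g)` is moved to `(t, 0)` by an automorphism. -/
def Rectifiable (f g : Polynomial K) : Prop :=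
  ∃ φ : MvPolynomial (Fin 2) K ≃ₐ[K] MvPolynomial (Fin 2) K,
    aeval ![f, g] (φ (X 0)) = Polynomial.X ∧ aeval ![f, g] (φ (X 1)) = 0

/-- The pair `(f, g)` generates. -/
def Generates (f g : Polynomial K) : Prop :=
  ∃ Q : MvPolynomial (Fin 2) K, aeval ![f, g] Q = Polynomial.X

theorem aeval_comp_aut (ψ : MvPolynomial (Fin 2) K ≃ₐ[K] MvPolynomial (Fin 2) K)
    {f g f' g' : Polynomial K} (h0 : aeval ![f, g] (ψ (X 0)) = f')
    (h1 : aeval ![f, g] (ψ (X 1)) = g') (p : MvPolynomial (Fin 2) K) :
    aeval ![f, g] (ψ p) = aeval ![f', g'] p := by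
  induction p using MvPolynomial.induction_on with
  | C a => rw [Fermat.Agent.JungVanDerKulk.algEquiv_C, aeval_C, aeval_C]
  | add p q hp hq => rw [map_add, map_add, map_add, hp, hq]
  | mul_X p i hp =>
    rw [map_mul, map_mul, map_mul, hp, aeval_X]
    fin_cases i
    · simp [h0]
    · simp [h1]

theorem Generates.transfer (ψ : MvPolynomial (Fin 2) K ≃ₐ[K] MvPolynomial (Fin 2) K)
    {f g f' g' : Polynomial K} (h0 : aeval ![f, g] (ψ (X 0)) = f')
    (h1 : aeval ![f, g] (ψ (X 1)) = g') (h : Generates f g) : Generates f' g' := by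
  obtain ⟨Q, hQ⟩ := h
  exact ⟨ψ.symm Q, by rw [← aeval_comp_aut ψ h0 h1, ψ.apply_symm_apply, hQ]⟩

theorem Rectifiable.transfer (ψ : MvPolynomial (Fin 2) K ≃ₐ[K] MvPolynomial (Fin 2) K)
    {f g f' g' : Polynomial K} (h0 : aeval ![f, g] (ψ (X 0)) = f')
    (h1 : aeval ![f, g] (ψ (X 1)) = g') (h : Rectifiable f' g') : Rectifiable f g := by
  obtain ⟨φ, e0, e1⟩ := h
  exact ⟨φ.trans ψ, by rw [AlgEquiv.trans_apply, aeval_comp_aut ψ h0 h1, e0],
    by rw [AlgEquiv.trans_apply, aeval_comp_aut ψ h0 h1, e1]⟩

theorem Generates.swap {f g : Polynomial K} (h : Generates f g) : Generates g f :=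
  h.transfer (swapVar K) (by simp) (by simp)

theorem Rectifiable.swap {f g : Polynomial K} (h : Rectifiable g f) : Rectifiable f g :=
  h.transfer (swapVar K) (by simp) (by simp)

/-- Translation and scaling. -/
def scaleShift (a : Kˣ) (b c : K) : MvPolynomial (Fin 2) K ≃ₐ[K] MvPolynomial (Fin 2) K :=
  AlgEquiv.ofAlgHom (aeval ![C (↑a⁻¹ : K) * (X 0 - C b), X 1 - C c])
    (aeval ![C (a : K) * X 0 + C b, X 1 + C c])
    (algHom_ext fun i => by
      fin_cases i <;> simp [← mul_assoc, ← C_mul])
    (algHom_ext fun i => by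
      fin_cases i <;> simp [← mul_assoc, ← C_mul])

theorem rectifiable_of_natDegree_zero {f g : Polynomial K} (h : Generates f g)
    (hg : g.natDegree = 0) : Rectifiable f g := by
  obtain ⟨c, rfl⟩ := Polynomial.natDegree_eq_zero.1 hg
  obtain ⟨Q, hQ⟩ := h
  set q : Polynomial K := aeval ![Polynomial.X, Polynomial.C c] Q with hq
  have hcomp : q.comp f = Polynomial.X := by
    rw [← hQ, hq]
    clear_value q
    clear hQ hq
    induction Q using MvPolynomial.induction_on with
    | C a => simp
    | add p r hp hr => rw [map_add, map_add, Polynomial.add_comp, hp, hr]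
    | mul_X p i hp =>
      rw [map_mul, map_mul, Polynomial.mul_comp, hp]
      fin_cases i <;> simp
  have hdeg : f.natDegree = 1 := by
    have := congrArg Polynomial.natDegree hcomp
    rw [Polynomial.natDegree_comp, Polynomial.natDegree_X] at this
    exact Nat.eq_one_of_mul_eq_one_left this
  obtain ⟨a, ha, b, rfl⟩ := Polynomial.natDegree_eq_one.1 hdeg
  refine ⟨scaleShift (Units.mk0 a ha) b c, ?_, ?_⟩
  · simp [scaleShift, ← mul_assoc, ← Polynomial.C_mul, ha]
  · simp [scaleShift]

theorem exists_degree_drop {f g : Polynomial K} (hf : f ≠ 0) (hg : 0 < g.natDegree) {q : ℕ}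
    (hq : g.natDegree = q * f.natDegree) :
    ∃ c : K, (g + Polynomial.C c * f ^ q).natDegree < g.natDegree := by
  have hl : (f.leadingCoeff ^ q) ≠ 0 := pow_ne_zero _ (Polynomial.leadingCoeff_ne_zero.2 hf)
  refine ⟨-(g.leadingCoeff / f.leadingCoeff ^ q), ?_⟩
  have hle : (g + Polynomial.C (-(g.leadingCoeff / f.leadingCoeff ^ q)) * f ^ q).natDegree ≤
      g.natDegree :=
    Polynomial.natDegree_add_le_of_degree_le le_rfl
      ((Polynomial.natDegree_C_mul_le _ _).trans (by rw [Polynomial.natDegree_pow, hq]))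
  refine hle.lt_of_ne fun e => ?_
  have h0 : (g + Polynomial.C (-(g.leadingCoeff / f.leadingCoeff ^ q)) * f ^ q).coeff g.natDegree
      = 0 := by
    rw [Polynomial.coeff_add, Polynomial.coeff_C_mul,
      show (f ^ q).coeff g.natDegree = f.leadingCoeff ^ q by
        rw [← Polynomial.leadingCoeff_pow, Polynomial.leadingCoeff, Polynomial.natDegree_pow, hq],
      neg_mul, div_mul_cancel₀ _ hl, ← sub_eq_add_neg]
    exact sub_self _
  rw [← e, Polynomial.coeff_natDegree, Polynomial.leadingCoeff_eq_zero] at h0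
  rw [h0, Polynomial.natDegree_zero] at e
  omega

variable [CharZero K]

/-- Every embedded line is rectifiable. -/
theorem rectifiable {f g : Polynomial K} (h : Generates f g) : Rectifiable f g := by
  induction hN : f.natDegree + g.natDegree using Nat.strong_induction_on generalizing f g with
  | _ N ih =>
    subst hN
    rcases Nat.eq_zero_or_pos g.natDegree with hg | hg
    · exact rectifiable_of_natDegree_zero h hg
    rcases Nat.eq_zero_or_pos f.natDegree with hf | hf
    · exact (rectifiable_of_natDegree_zero h.swap hf).swap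
    have key : ∀ {u v : Polynomial K}, Generates u v → 0 < v.natDegree → 0 < u.natDegree →
        u.natDegree + v.natDegree ≤ f.natDegree + g.natDegree → u.natDegree ∣ v.natDegree →
        Rectifiable u v := by
      intro u v huv hv hu hle hdvd
      obtain ⟨q, hq⟩ := hdvd
      rw [mul_comm] at hq
      obtain ⟨c, hc⟩ := exists_degree_drop (Polynomial.ne_zero_of_natDegree_gt hu) hv hq
      have h0 : aeval ![u, v] (shear (Polynomial.C c * Polynomial.X ^ q) (X 0)) = u := by simp
      have h1 : aeval ![u, v] (shear (Polynomial.C c * Polynomial.X ^ q) (X 1)) =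
          v + Polynomial.C c * u ^ q := by simp
      exact Rectifiable.transfer _ h0 h1 (ih _ (by omega) (huv.transfer _ h0 h1) rfl)
    rcases natDegree_dvd_or_dvd hf h with hd | hd
    · exact key h hg hf le_rfl hd
    · exact (key h.swap hf hg (by omega) hd).swap

end Fermat.Agent.AbhyankarMoh
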