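import Fermat.Agent.AbhyankarMoh.Levels
import Mathlib.Algebra.CharZero.Infinite
import Mathlib.Algebra.Polynomial.Degree.IsMonicOfDegree
import Mathlib.Algebra.Ring.GeomSum
import Mathlib.RingTheory.Polynomial.Basic

/-!
# Approximate roots and positivity of the levels

The approximate roots of the polynomial of a one place series behave like its key polynomials.
If they can be taken in a ring all of whose values at the series have order at most `0`,
then every level has positive `delta`, which forces the order to divide `n` or conversely.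
-/

set_option autoImplicit false

noncomputable section

open HahnSeries Polynomial
open scoped LaurentSeries

namespace Fermat.Agent.AbhyankarMoh

section ApproxRoot

variable {R : Type*} [CommRing R]

theorem exists_add_pow (P h : R[X]) {M : ℕ} (hP : P.natDegree ≤ M) (hh : h.natDegree ≤ M) :
    ∀ k : ℕ, ∃ T : R[X], T.natDegree ≤ k * M ∧
      (P + h) ^ (k + 2) = P ^ (k + 2) + ((k + 2 : ℕ) : R[X]) * h * P ^ (k + 1) + h ^ 2 * T
  | 0 => ⟨1, by simp, by push_cast; ring⟩
  | k + 1 => by
    obtain ⟨T, hT, e⟩ := exists_add_pow P h hP hh k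
    refine ⟨((k + 2 : ℕ) : R[X]) * P ^ (k + 1) + (P + h) * T, ?_, ?_⟩
    · refine natDegree_add_le_of_degree_le ?_ ?_
      · refine natDegree_mul_le.trans ?_
        rw [natDegree_natCast, zero_add]
        exact natDegree_pow_le.trans (Nat.mul_le_mul_left _ hP)
      · refine natDegree_mul_le.trans ?_
        rw [Nat.succ_mul, add_comm (k * M)]
        exact add_le_add (natDegree_add_le_of_degree_le hP hh) hT
    · rw [pow_succ, e]
      push_cast
      ring

/-- The iteration towards the approximate root, carrying an invariant. -/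
theorem exists_approxRoot [Nontrivial R] {d M : ℕ} (hd : 2 ≤ d) (hM : 0 < M)
    (hu : IsUnit (d : R)) {F : R[X]} (hF : IsMonicOfDegree F (M * d)) (Inv : R[X] → Prop)
    (step : ∀ P h S : R[X], IsMonicOfDegree P M → Inv P → h.natDegree < M →
      S.natDegree < (d - 1) * M → F - P ^ d = S + (d : R[X]) * h * P ^ (d - 1) → Inv (P + h))
    {P : R[X]} (hP : IsMonicOfDegree P M) (hInv : Inv P) :
    ∃ G, IsMonicOfDegree G M ∧ Inv G ∧ (F - G ^ d).natDegree < (d - 1) * M := by
  induction hN : (F - P ^ d).natDegree using Nat.strong_induction_on generalizing P with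
  | _ N ih =>
    subst hN
    by_cases hlt : (F - P ^ d).natDegree < (d - 1) * M
    · exact ⟨P, hP, hInv, hlt⟩
    obtain ⟨k, rfl⟩ : ∃ k, d = k + 2 := ⟨d - 2, by omega⟩
    rw [show k + 2 - 1 = k + 1 by omega] at step hlt ⊢
    obtain ⟨b, hb⟩ := hu.exists_right_inv
    set D := F - P ^ (k + 2) with hD
    have hdm : M * (k + 2) ≠ 0 := (Nat.mul_pos hM (Nat.succ_pos _)).ne'
    have hDlt : D.natDegree < M * (k + 2) :=
      IsMonicOfDegree.natDegree_sub_lt hdm hF (hP.pow _)
    have hQm : (P ^ (k + 1)).Monic := hP.monic.pow _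
    have hQd : (P ^ (k + 1)).natDegree = (k + 1) * M := by
      rw [hP.monic.natDegree_pow, hP.natDegree_eq]
    have hQ1 : P ^ (k + 1) ≠ 1 := fun e => by
      rw [e, natDegree_one] at hQd
      exact (Nat.mul_pos k.succ_pos hM).ne hQd
    have hS : (D %ₘ P ^ (k + 1)).natDegree < (k + 1) * M :=
      hQd ▸ natDegree_modByMonic_lt _ hQm hQ1
    have hA : (D /ₘ P ^ (k + 1)).natDegree = D.natDegree - (k + 1) * M := by
      rw [natDegree_divByMonic _ hQm, hQd]
    set h := C b * (D /ₘ P ^ (k + 1)) with hh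
    have hhd : h.natDegree ≤ D.natDegree - (k + 1) * M := (natDegree_C_mul_le _ _).trans hA.le
    have hhM : h.natDegree < M := by
      rw [show M * (k + 2) = (k + 1) * M + M by ring] at hDlt
      omega
    have hdh : ((k + 2 : ℕ) : R[X]) * h = D /ₘ P ^ (k + 1) := by
      rw [hh, ← mul_assoc, ← Polynomial.C_eq_natCast, ← C_mul, hb, C_1, one_mul]
    have hsplit : D = D %ₘ P ^ (k + 1) + ((k + 2 : ℕ) : R[X]) * h * P ^ (k + 1) := by
      rw [hdh, mul_comm (D /ₘ _)]
      exact (modByMonic_add_div D _).symm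
    have hP' : IsMonicOfDegree (P + h) M := hP.add_right hhM
    obtain ⟨T, hT, hpow⟩ := exists_add_pow P h hP.natDegree_eq.le hhM.le k
    have hdrop : (F - (P + h) ^ (k + 2)).natDegree < D.natDegree := by
      have e : F - (P + h) ^ (k + 2) = D %ₘ P ^ (k + 1) - h ^ 2 * T := by
        linear_combination hsplit - hpow - hD
      rw [e]
      refine (natDegree_sub_le _ _).trans_lt (max_lt (hS.trans_le (not_lt.1 hlt)) ?_)
      refine natDegree_mul_le.trans_lt ?_
      have h2 : (h ^ 2).natDegree ≤ 2 * h.natDegree := natDegree_pow_le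
      rw [show M * (k + 2) = (k + 1) * M + M by ring] at hDlt
      rw [Nat.succ_mul] at hlt hhd hDlt
      omega
    exact ih _ hdrop hP' (step P h _ hP hInv hhM hS hsplit) rfl

theorem approxRoot_unique [IsDomain R] [CharZero R] {d M : ℕ} {F G H : R[X]}
    (hG : IsMonicOfDegree G M) (hH : IsMonicOfDegree H M)
    (h1 : (F - G ^ d).natDegree < (d - 1) * M) (h2 : (F - H ^ d).natDegree < (d - 1) * M) :
    G = H := by
  by_contra hne
  have hd : 0 < d := Nat.pos_of_ne_zero fun e => by simp [e] at h1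
  set Sg := ∑ i ∈ Finset.range d, G ^ i * H ^ (d - 1 - i) with hSg
  have hc : Sg.coeff ((d - 1) * M) = (d : R) := by
    rw [hSg, finsetSum_coeff]
    trans ∑ i ∈ Finset.range d, (1 : R)
    swap
    · simp
    refine Finset.sum_congr rfl fun i hi => ?_
    have e : (G ^ i * H ^ (d - 1 - i)).natDegree = (d - 1) * M := by
      rw [(hG.monic.pow i).natDegree_mul (hH.monic.pow _), hG.monic.natDegree_pow,
        hH.monic.natDegree_pow, hG.natDegree_eq, hH.natDegree_eq, ← add_mul,
        Nat.add_sub_cancel' (by have := Finset.mem_range.1 hi; omega)]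
    rw [← e]
    exact ((hG.monic.pow i).mul (hH.monic.pow _)).coeff_natDegree
  have hc0 : Sg.coeff ((d - 1) * M) ≠ 0 := by rw [hc]; exact Nat.cast_ne_zero.2 hd.ne'
  have hS0 : Sg ≠ 0 := fun e => hc0 (by rw [e, Polynomial.coeff_zero])
  have hdeg := le_natDegree_of_ne_zero hc0
  have e : Sg * (G - H) = (F - H ^ d) - (F - G ^ d) := by
    rw [hSg, geom_sum₂_mul]; ring
  have h3 := natDegree_sub_le (F - H ^ d) (F - G ^ d)
  rw [← e, natDegree_mul hS0 (sub_ne_zero.2 hne)] at h3
  omega

end ApproxRoot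

namespace OnePlace

variable {L : Type*} [Field L] [CharZero L] (c : OnePlace L)

instance charZero_fixedField : CharZero c.fixedField :=
  haveI : CharZero L⸨X⸩ :=
    charZero_of_injective_ringHom (f := (HahnSeries.C : L →+* L⸨X⸩)) HahnSeries.C_injective
  ⟨fun a b h => by simpa using congrArg Subtype.val h⟩

/-- The generic point near the cut. -/
def pt (e : ℤ) (ξ : L) : L⸨X⸩ := c.trunc e + HahnSeries.single e ξ

omit [CharZero L] in
theorem near_pt (e : ℤ) (ξ : L) : c.Near e (c.pt e ξ) := fun i hi => by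
  rw [pt, HahnSeries.coeff_add, coeff_single_of_ne hi.ne, add_zero, c.near_trunc e i hi]

omit [CharZero L] in
theorem coeff_pt (e : ℤ) (ξ : L) : (c.pt e ξ).coeff e = ξ := by
  rw [pt, HahnSeries.coeff_add, coeff_single_same, trunc, coeff_truncLT_of_le le_rfl, zero_add]

omit [CharZero L] in
/-- The leading form at the generic point. -/
theorem exists_form (e : ℤ) : ∀ (l : ℕ) (Q : c.fixedField[X]), Q ≠ 0 →
    Q.natDegree < l * c.per e → ∃ (r : ℤ) (φ : L[X]), φ ≠ 0 ∧ φ.natDegree < l ∧
      ∀ ξ, Lead (c.ev Q (c.pt e ξ)) r (φ.eval ξ) := by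
  intro l
  induction l with
  | zero => intro Q _ h; simp at h
  | succ l ih =>
    intro Q hQ hdeg
    have hm := c.key_monic e
    have hsplit := Polynomial.modByMonic_add_div Q (c.key e)
    have hP1 : c.key e ≠ 1 := fun he1 => by
      have := c.key_natDegree e
      rw [he1, natDegree_one] at this
      exact (c.per_pos e).ne this
    have hev : ∀ u, c.ev Q u =
        c.ev (Q %ₘ c.key e) u + c.ev (c.key e * (Q /ₘ c.key e)) u := fun u => by
      conv_lhs => rw [← hsplit]
      exact eval₂_add _ _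
    have hrem : Q %ₘ c.key e ≠ 0 → ∃ (r : ℤ) (a : L), a ≠ 0 ∧
        ∀ ξ, Lead (c.ev (Q %ₘ c.key e) (c.pt e ξ)) r a := fun h0 => by
      obtain ⟨r, a, ha, -, h⟩ := c.small e _ h0
        (c.key_natDegree e ▸ natDegree_modByMonic_lt _ hm hP1)
      exact ⟨r, a, ha, fun ξ => h _ (c.near_pt e ξ)⟩
    by_cases hq : Q /ₘ c.key e = 0
    · rw [hq, mul_zero, add_zero] at hsplit
      rw [hsplit] at hrem
      obtain ⟨r, a, ha, h⟩ := hrem hQ
      exact ⟨r, Polynomial.C a, C_ne_zero.2 ha, by simp, fun ξ => by simpa using h ξ⟩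
    have hdeg' : (Q /ₘ c.key e).natDegree < l * c.per e := by
      rw [natDegree_divByMonic _ hm, c.key_natDegree]
      have hge : c.per e ≤ Q.natDegree := by
        by_contra hlt
        refine hq ((divByMonic_eq_zero_iff hm).2 ?_)
        rw [degree_eq_natDegree hQ, degree_eq_natDegree hm.ne_zero, c.key_natDegree]
        exact_mod_cast Nat.not_le.1 hlt
      rw [Nat.succ_mul] at hdeg
      omega
    obtain ⟨r1, φ, hφ, hφl, hl⟩ := ih _ hq hdeg'
    set φ' := Polynomial.C (c.keyConst e) * (Polynomial.X * φ) with hφ'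
    have hφ'0 : φ' ≠ 0 :=
      mul_ne_zero (C_ne_zero.2 (c.keyConst_ne_zero e)) (mul_ne_zero X_ne_zero hφ)
    have hφ'd : φ'.natDegree < l + 1 := by
      rw [hφ', natDegree_C_mul (c.keyConst_ne_zero e), natDegree_X_mul hφ]
      omega
    have hl' : ∀ ξ, Lead (c.ev (c.key e * (Q /ₘ c.key e)) (c.pt e ξ))
        (-c.delta e + r1) (φ'.eval ξ) := fun ξ => by
      have h1 := (c.lead_key (c.near_pt e ξ)).mul (hl ξ)
      rw [c.coeff_pt] at h1
      rw [ev, eval₂_mul]
      simpa [hφ', ev, mul_assoc] using h1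
    by_cases hrm : Q %ₘ c.key e = 0
    · rw [hrm, zero_add] at hsplit
      rw [hsplit] at hl'
      exact ⟨_, φ', hφ'0, hφ'd, hl'⟩
    obtain ⟨r0, a, ha, h0⟩ := hrem hrm
    rcases lt_trichotomy r0 (-c.delta e + r1) with hlt | heq | hlt
    · exact ⟨r0, Polynomial.C a, C_ne_zero.2 ha, by simp,
        fun ξ => by simpa [hev] using (h0 ξ).add_lt (hl' ξ) hlt⟩
    · refine ⟨r0, Polynomial.C a + φ', fun h => ha ?_, ?_, fun ξ => ?_⟩
      · simpa [hφ'] using congrArg (fun p => Polynomial.coeff p 0) h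
      · exact (natDegree_add_le _ _).trans_lt (max_lt (by simp) hφ'd)
      · simpa [hev] using (h0 ξ).add (heq ▸ hl' ξ)
    · exact ⟨_, φ', hφ'0, hφ'd, fun ξ => by
        rw [hev, add_comm]; exact (hl' ξ).add_lt (h0 ξ) hlt⟩

/-- `F` is the polynomial with the conjugates of `y` as its roots. -/
def IsRootPoly (F : c.fixedField[X]) : Prop :=
  F.map c.fixedField.subtype =
    ∏ j ∈ Finset.range c.n, (Polynomial.X - Polynomial.C (rot (c.ζ ^ j) c.y))

omit [CharZero L] in
theorem IsRootPoly.isMonicOfDegree {F : c.fixedField[X]} (hF : c.IsRootPoly F) :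
    IsMonicOfDegree F c.n := by
  have hm : (F.map c.fixedField.subtype).Monic := by
    rw [hF]; exact monic_prod_of_monic _ _ fun j _ => monic_X_sub_C _
  refine ⟨?_, monic_of_injective c.fixedField.subtype.injective hm⟩
  rw [← natDegree_map_eq_of_injective c.fixedField.subtype.injective F, hF,
    natDegree_prod_of_monic _ _ fun j _ => monic_X_sub_C _]
  simp

theorem prod_range_mul_eq {β : Type*} [CommMonoid β] {M : ℕ} (f : ℕ → β) : ∀ N : ℕ,
    ∏ j ∈ Finset.range (M * N), f j = ∏ q ∈ Finset.range N, ∏ r ∈ Finset.range M, f (M * q + r)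
  | 0 => by simp
  | N + 1 => by
    rw [Nat.mul_succ, Finset.prod_range_add, Finset.prod_range_succ, prod_range_mul_eq f N]

/-- The character value of the level. -/
def eta (e : ℤ) : L := (((c.ζ ^ c.per e) ^ e : Lˣ) : L)

omit [CharZero L] in
/-- The leading form of the root polynomial at the generic point. -/
theorem lead_rootPoly {e : ℤ} {F : c.fixedField[X]} (hF : c.IsRootPoly F) (ξ : L) :
    Lead (c.ev F (c.pt e ξ)) (c.dd e * -c.delta e)
      (c.keyConst e ^ c.dd e *
        ∏ q ∈ Finset.range (c.dd e), (ξ - c.y.coeff e * c.eta e ^ q)) := by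
  have h0 : 0 ∈ Finset.range (c.per e) := Finset.mem_range.2 (c.per_pos e)
  rw [ev, Polynomial.eval₂_eq_eval_map, hF, Polynomial.eval_prod, ← c.per_mul_dd e,
    prod_range_mul_eq]
  simp only [Polynomial.eval_sub, Polynomial.eval_X, Polynomial.eval_C]
  have hblock : ∀ q ∈ Finset.range (c.dd e),
      Lead (∏ r ∈ Finset.range (c.per e),
          (c.pt e ξ - rot (c.ζ ^ (c.per e * q + r)) c.y)) (-c.delta e)
        ((ξ - c.y.coeff e * c.eta e ^ q) * c.keyConst e) := by
    intro q _
    rw [← Finset.mul_prod_erase _ _ h0]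
    have hw := c.near_rot (c.near_self e) (dvd_mul_right (c.per e) q)
    have hfirst : Lead (c.pt e ξ - rot (c.ζ ^ (c.per e * q + 0)) c.y) e
        (ξ - c.y.coeff e * c.eta e ^ q) := by
      refine ⟨fun i hi => ?_, ?_⟩
      · rw [add_zero, HahnSeries.coeff_sub, hw i hi, c.near_pt e ξ i hi, sub_self]
      · rw [add_zero, HahnSeries.coeff_sub, c.coeff_pt, coeff_rot, mul_comm (c.y.coeff e), eta,
          ← Units.val_pow_eq_pow_val, ← zpow_natCast ((c.ζ ^ c.per e) ^ e), ← zpow_mul,
          mul_comm e, zpow_mul, zpow_natCast, ← pow_mul]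
    have hrest := lead_prod ((Finset.range (c.per e)).erase 0)
      (x := fun r => c.pt e ξ - rot (c.ζ ^ (c.per e * q + r)) c.y) (r := c.ord) (c := c.gap)
      fun r hr => by
        rw [Finset.mem_erase, Finset.mem_range] at hr
        have := c.lead_sub_rot (fun hd => hr.1 (Nat.eq_zero_of_dvd_of_lt hd hr.2))
          (c.near_pt e ξ) hw
        rwa [rot_rot, ← pow_add, add_comm r] at this
    have hδ : -c.delta e = e + ∑ j ∈ (Finset.range (c.per e)).erase 0, c.ord j := by
      rw [delta, total, ← Finset.add_sum_erase _ _ h0, if_pos rfl, zero_add,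
        Finset.sum_congr rfl (fun j hj => if_neg (Finset.ne_of_mem_erase hj)),
        Finset.sum_neg_distrib]
      ring
    rw [hδ]
    exact hfirst.mul hrest
  have h := lead_prod _ hblock
  rw [Finset.sum_const, Finset.card_range, nsmul_eq_mul, Finset.prod_mul_distrib,
    Finset.prod_const, Finset.card_range, mul_comm (∏ q ∈ _, _)] at h
  exact h

omit [CharZero L] in
/-- The correction of the leading form has no term in degree `dd e - 1`. -/
theorem exists_form_correction {e : ℤ} {N : ℕ} (hN : c.per (e + 1) = c.per e * N) (hN1 : 1 < N)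
    {F : c.fixedField[X]} (hF : c.IsRootPoly F) :
    ∃ ψ : L[X], ψ.coeff (c.dd e - 1) = 0 ∧
      ∀ ξ, Lead (c.ev F (c.pt e ξ)) (c.dd e * -c.delta e)
        (ψ.eval ξ + (c.keyConst e * ξ) ^ c.dd e) := by
  have hd : 0 < c.dd e := c.dd_pos e
  refine ⟨Polynomial.C (c.keyConst e ^ c.dd e) * (∏ q ∈ Finset.range (c.dd e),
      (Polynomial.X - Polynomial.C (c.y.coeff e * c.eta e ^ q)) - Polynomial.X ^ c.dd e),
    ?_, fun ξ => ?_⟩
  · have hsum : ∑ q ∈ Finset.range (c.dd e), c.eta e ^ q = 0 := by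
      have hpow : c.eta e ^ c.dd e = 1 := by
        rw [eta, ← Units.val_pow_eq_pow_val, ← zpow_natCast ((c.ζ ^ c.per e) ^ e), ← zpow_mul,
          mul_comm e, zpow_mul, zpow_natCast, ← pow_mul, c.per_mul_dd, c.hζ.pow_eq_one,
          one_zpow, Units.val_one]
      have hne : c.eta e ≠ 1 := fun h1 => by
        have : c.per (e + 1) ∣ c.per e := (c.per_dvd_iff _ _).2 fun i hi hy => by
          rcases lt_or_eq_of_le (Int.lt_add_one_iff.1 hi) with hlt | rfl
          · exact (c.per_dvd_iff e _).1 dvd_rfl i hlt hy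
          · exact Units.ext h1
        have := Nat.le_of_dvd (c.per_pos e) this
        rw [hN] at this
        nlinarith [c.per_pos e]
      have h := geom_sum_mul (c.eta e) (c.dd e)
      rw [hpow, sub_self, mul_eq_zero] at h
      exact h.resolve_right (sub_ne_zero.2 hne)
    have hc := prod_X_sub_C_coeff_card_pred (Finset.range (c.dd e))
      (fun q => c.y.coeff e * c.eta e ^ q) (by simpa using hd)
    rw [Finset.card_range, ← Finset.mul_sum, hsum, mul_zero, neg_zero] at hc
    rw [Polynomial.coeff_C_mul, Polynomial.coeff_sub, hc, Polynomial.coeff_X_pow,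
      if_neg (by omega), sub_zero, mul_zero]
  · have h := c.lead_rootPoly hF (e := e) ξ
    convert h using 1
    simp [Polynomial.eval_prod, mul_pow]
    ring

/-- `P` has the leading terms of the key polynomial. -/
def Good (e : ℤ) (P : c.fixedField[X]) : Prop :=
  ∀ u, c.Near e u → Lead (c.ev P u) (-c.delta e) (c.keyConst e * u.coeff e)

omit [CharZero L] in
theorem lead_natCast (m : ℕ) : Lead (m : L⸨X⸩) 0 (m : L) := by
  rw [← map_natCast (HahnSeries.C : L →+* L⸨X⸩)]
  exact lead_C _

/-- The step of the iteration preserves the leading terms. -/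
theorem good_step {e : ℤ} {N : ℕ} (hN : c.per (e + 1) = c.per e * N) (hN1 : 1 < N)
    {F : c.fixedField[X]} (hF : c.IsRootPoly F) {P h S : c.fixedField[X]} (hP : c.Good e P)
    (hh : h.natDegree < c.per e) (hS : S.natDegree < (c.dd e - 1) * c.per e)
    (heq : F - P ^ c.dd e = S + (c.dd e : c.fixedField[X]) * h * P ^ (c.dd e - 1)) :
    c.Good e (P + h) := by
  intro u hu
  rw [ev, eval₂_add]
  by_cases hh0 : h = 0
  · rw [hh0, eval₂_zero, add_zero]; exact hP u hu
  obtain ⟨r, a, ha, -, hla⟩ := c.small e h hh0 hh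
  refine (hP u hu).add_lt (hla u hu) (not_le.1 fun hle => ?_)
  have : Infinite L := CharZero.infinite L
  set d := c.dd e with hd
  have hd0 : 0 < d := c.dd_pos e
  obtain ⟨ψ, hψ, hlF⟩ := c.exists_form_correction hN hN1 hF
  set K := c.keyConst e with hK
  set t : ℤ := r + ((d - 1 : ℕ) : ℤ) * -c.delta e with ht
  set τ : L[X] := Polynomial.C ((d : L) * a * K ^ (d - 1)) * Polynomial.X ^ (d - 1) with hτ
  have hlT : ∀ ξ, Lead (c.ev ((d : c.fixedField[X]) * h * P ^ (d - 1)) (c.pt e ξ)) t
      (τ.eval ξ) := fun ξ => by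
    have h1 := ((lead_natCast d).mul (hla _ (c.near_pt e ξ))).mul
      ((hP _ (c.near_pt e ξ)).pow (d - 1))
    rw [c.coeff_pt, zero_add] at h1
    rw [ev, eval₂_mul, eval₂_mul, eval₂_natCast, eval₂_pow]
    simpa [hτ, ht, hK, ev, mul_pow, mul_assoc] using h1
  have htle : t ≤ (d : ℤ) * -c.delta e := by
    rw [ht, show ((d - 1 : ℕ) : ℤ) = d - 1 by omega]
    linarith
  obtain ⟨ψ', hψ', hlL⟩ : ∃ ψ' : L[X], ψ'.coeff (d - 1) = 0 ∧
      ∀ ξ, Lead (c.ev (F - P ^ d) (c.pt e ξ)) t (ψ'.eval ξ) := by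
    have hL : ∀ ξ, Lead (c.ev (F - P ^ d) (c.pt e ξ)) (d * -c.delta e) (ψ.eval ξ) := fun ξ => by
      have h1 := (hlF ξ).add ((hP _ (c.near_pt e ξ)).pow d).neg
      rw [c.coeff_pt, add_neg_cancel_right, ← sub_eq_add_neg] at h1
      rw [ev, eval₂_sub, eval₂_pow]
      exact h1
    rcases htle.lt_or_eq with hlt | h1
    · exact ⟨0, Polynomial.coeff_zero _, fun ξ => by simpa using (hL ξ).mono hlt⟩
    · exact ⟨ψ, hψ, h1 ▸ hL⟩
  have hcoef : ∀ ξ i, (c.ev S (c.pt e ξ)).coeff i = (c.ev (F - P ^ d) (c.pt e ξ)).coeff i -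
      (c.ev ((d : c.fixedField[X]) * h * P ^ (d - 1)) (c.pt e ξ)).coeff i := fun ξ i => by
    rw [← HahnSeries.coeff_sub]
    congr 1
    rw [heq, ev, ev, ev, eval₂_add, add_sub_cancel_right]
  have hSbelow : ∀ ξ, ∀ i < t, (c.ev S (c.pt e ξ)).coeff i = 0 := fun ξ i hi => by
    rw [hcoef, (hlL ξ).1 i hi, (hlT ξ).1 i hi, sub_zero]
  obtain ⟨φ, hφ, hlS⟩ : ∃ φ : L[X], φ.coeff (d - 1) = 0 ∧
      ∀ ξ, (c.ev S (c.pt e ξ)).coeff t = φ.eval ξ := by
    by_cases hS0 : S = 0
    · exact ⟨0, Polynomial.coeff_zero _, fun ξ => by simp [hS0, ev]⟩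
    obtain ⟨rS, φ, hφ0, hφd, hlS⟩ := c.exists_form e (d - 1) S hS0 hS
    rcases lt_trichotomy rS t with hlt | h1 | hlt
    · refine absurd (Polynomial.funext fun ξ => ?_) hφ0
      rw [eval_zero, ← (hlS ξ).2, hSbelow ξ rS hlt]
    · exact ⟨φ, coeff_eq_zero_of_natDegree_lt hφd, fun ξ => h1 ▸ (hlS ξ).2⟩
    · exact ⟨0, Polynomial.coeff_zero _, fun ξ => by rw [eval_zero]; exact (hlS ξ).1 t hlt⟩
  have hfin : φ = ψ' - τ := Polynomial.funext fun ξ => by
    rw [eval_sub, ← hlS, hcoef, (hlL ξ).2, (hlT ξ).2]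
  have h2 := congrArg (fun p => Polynomial.coeff p (d - 1)) hfin
  simp only [Polynomial.coeff_sub, hφ, hψ', zero_sub, zero_eq_neg, hτ, Polynomial.coeff_C_mul,
    Polynomial.coeff_X_pow] at h2
  simp [hd0.ne', ha, c.keyConst_ne_zero e, hK] at h2

/-- A ring of coefficients all of whose values at `y` have order at most `0`. -/
structure Model where
  A : Type*
  [inst : CommRing A]
  hom : A →+* c.fixedField
  isUnit : ∀ d : ℕ, d ≠ 0 → IsUnit (d : A)
  poly : A[X]
  monic : IsMonicOfDegree poly c.n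
  isRootPoly : c.IsRootPoly (poly.map hom)
  order_nonpos : ∀ G : A[X], (c.ev (G.map hom) c.y).order ≤ 0

variable {c} in
/-- **Positivity** of the levels. -/
theorem Model.dd_le_delta (m : c.Model) {e : ℤ} {N : ℕ} (hy : c.y.coeff e ≠ 0)
    (hN : c.per (e + 1) = c.per e * N) (hN1 : 1 < N) : (c.dd (e + 1) : ℤ) ≤ c.delta e := by
  let := m.inst
  have : Nontrivial m.A := m.hom.domain_nontrivial
  have hd2 : 2 ≤ c.dd e := by
    have h1 : c.dd e = N * c.dd (e + 1) := by
      refine Nat.eq_of_mul_eq_mul_left (c.per_pos e) ?_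
      rw [c.per_mul_dd, ← mul_assoc, ← hN, c.per_mul_dd]
    nlinarith [c.dd_pos (e + 1)]
  have hm : IsMonicOfDegree m.poly (c.per e * c.dd e) := (c.per_mul_dd e).symm ▸ m.monic
  obtain ⟨GA, hGA, -, hGAd⟩ := exists_approxRoot hd2 (c.per_pos e)
    (m.isUnit _ (c.dd_pos e).ne') hm (fun _ => True) (fun _ _ _ _ _ _ _ _ => trivial)
    (isMonicOfDegree_X_pow m.A (c.per e)) trivial
  have hmap : IsMonicOfDegree (m.poly.map m.hom) (c.per e * c.dd e) :=
    (c.per_mul_dd e).symm ▸ m.isRootPoly.isMonicOfDegree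
  obtain ⟨G, hG, hgood, hGd⟩ := exists_approxRoot hd2 (c.per_pos e)
    (isUnit_iff_ne_zero.2 (Nat.cast_ne_zero.2 (c.dd_pos e).ne')) hmap (c.Good e)
    (fun P h S _ hP hh hS heq => c.good_step hN hN1 m.isRootPoly hP hh hS heq)
    ⟨c.key_natDegree e, c.key_monic e⟩ (fun u hu => c.lead_key hu)
  have heq : GA.map m.hom = G := by
    refine approxRoot_unique ⟨?_, hGA.monic.map _⟩ hG ?_ hGd
    · rw [hGA.monic.natDegree_map, hGA.natDegree_eq]
    · rw [← Polynomial.map_pow, ← Polynomial.map_sub]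
      exact natDegree_map_le.trans_lt hGAd
  have hlead := hgood c.y (c.near_self e)
  rw [← heq] at hlead
  have hne := mul_ne_zero (c.keyConst_ne_zero e) hy
  have h0 := m.order_nonpos GA
  rw [hlead.order_eq hne] at h0
  have hne0 : c.delta e ≠ 0 := fun h => by
    have h1 := c.dvd_of_dvd_mul_delta (j := 1) hy hN (by simp [h])
    exact absurd (Nat.le_of_dvd one_pos h1) (by omega)
  exact Int.le_of_dvd (by omega) (c.delta_dvd e hy)

variable {c} in
theorem Model.total_add_dd_le (m : c.Model) (e : ℤ) :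
    c.total e + c.dd e ≤ c.total (e + 1) + c.dd (e + 1) ∧
      ((c.total (e + 1) + c.dd (e + 1) ≤ c.total e + c.dd e) →
        c.per (e + 1) = c.per e ∨ c.delta e = c.dd (e + 1)) := by
  obtain ⟨N, hN⟩ := c.per_succ_dvd e
  have h1 : (c.dd e : ℤ) = N * c.dd (e + 1) := by
    have : c.dd e = N * c.dd (e + 1) := by
      refine Nat.eq_of_mul_eq_mul_left (c.per_pos e) ?_
      rw [c.per_mul_dd, ← mul_assoc, ← hN, c.per_mul_dd]
    exact_mod_cast this
  have hrec := c.total_succ e N hN
  have hN0 : N ≠ 0 := fun h => (c.per_pos (e + 1)).ne' (by rw [hN, h, mul_zero])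
  by_cases hN1 : N = 1
  · subst hN1
    simp only [Nat.cast_one, sub_self, zero_mul, add_zero, one_mul] at hrec h1
    exact ⟨by omega, fun _ => Or.inl (by simpa using hN)⟩
  have hy : c.y.coeff e ≠ 0 := fun hy => hN1 (by
    have : c.per (e + 1) = c.per e := by rw [per, per, (c.dd_succ e).2 hy]
    rw [hN] at this
    exact Nat.eq_of_mul_eq_mul_left (c.per_pos e) (by rw [this, mul_one]))
  have hle := m.dd_le_delta hy hN (by omega)
  have hgap : c.total (e + 1) + c.dd (e + 1) - (c.total e + c.dd e) =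
      ((N : ℤ) - 1) * (c.delta e - c.dd (e + 1)) := by
    rw [hrec, h1]; ring
  have hpos : (1 : ℤ) ≤ (N : ℤ) - 1 := by omega
  refine ⟨?_, fun h => Or.inr ?_⟩
  · nlinarith
  · nlinarith

omit [CharZero L] in
theorem dd_total_of_le {e : ℤ} (he : e ≤ c.y.order) :
    c.dd e = c.n ∧ c.per e = 1 ∧ c.total e = 0 := by
  have hs : c.supp e = ∅ := Finset.eq_empty_of_forall_notMem fun i hi =>
    (c.mem_supp.1 hi).2 (coeff_eq_zero_of_lt_order ((c.mem_supp.1 hi).1.trans_le he))
  have hd : c.dd e = c.n := by rw [dd, hs, Finset.gcd_empty, Nat.gcd_zero_right]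
  have hp : c.per e = 1 := by rw [per, hd, Nat.div_self c.n_pos]
  exact ⟨hd, hp, by simp [total, hp]⟩

variable {c} in
/-- With total `n - 1` the order divides `n` or conversely. -/
theorem Model.order_dvd (m : c.Model)
    (hsum : ∑ j ∈ (Finset.range c.n).erase 0, c.ord j = 1 - c.n) :
    (c.n : ℤ) ∣ c.y.order ∨ c.y.order ∣ (c.n : ℤ) := by
  obtain ⟨hd0, hp0, ht0⟩ := c.dd_total_of_le le_rfl
  set e0 := c.y.order with he0
  set B : ℤ := max (e0 + 1) (∑ j ∈ Finset.range c.n, |c.ord j| + 1) with hB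
  have hperB : c.per B = c.n := by
    by_contra hne
    have hlt : c.per B < c.n := lt_of_le_of_ne (Nat.div_le_self _ _) hne
    have hnd : ¬c.n ∣ c.per B := fun h => absurd (Nat.le_of_dvd (c.per_pos B) h) (by omega)
    set j := c.per B with hj
    have hne' : c.y - rot (c.ζ ^ j) c.y ≠ 0 := fun h =>
      hnd (c.distinct j (sub_eq_zero.1 h).symm)
    have hlt' : c.ord j < B := lt_of_lt_of_le
      (lt_of_le_of_lt ((le_abs_self _).trans (Finset.single_le_sum
        (f := fun i => |c.ord i|) (fun i _ => abs_nonneg _) (Finset.mem_range.2 hlt)))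
        (lt_add_one _)) (le_max_right _ _)
    refine hne' (coeff_order_eq_zero.1 ?_)
    change (c.y - rot (c.ζ ^ j) c.y).coeff (c.ord j) = 0
    rw [HahnSeries.coeff_sub, c.near_rot (c.near_self B) dvd_rfl _ hlt', sub_self]
  have hddB : c.dd B = 1 := by
    refine Nat.eq_of_mul_eq_mul_left c.n_pos ?_
    rw [mul_one]
    conv_lhs => rw [← hperB]
    exact c.per_mul_dd B
  have hphiB : c.total B + c.dd B = c.n := by
    rw [hddB, total, hperB, ← Finset.add_sum_erase _ _ (Finset.mem_range.2 c.n_pos), if_pos rfl,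
      Finset.sum_congr rfl (fun j hj => if_neg (Finset.ne_of_mem_erase hj)),
      Finset.sum_neg_distrib, hsum]
    push_cast
    ring
  have hmono : ∀ e, e0 + 1 ≤ e → c.total (e0 + 1) + c.dd (e0 + 1) ≤ c.total e + c.dd e := by
    intro e he
    induction e, he using Int.leInduction with
    | base => exact le_rfl
    | succ e _ ih => exact ih.trans (m.total_add_dd_le e).1
  have h1 := hmono B (le_max_left _ _)
  rw [hphiB] at h1
  rcases (m.total_add_dd_le e0).2 (by rw [ht0, hd0, zero_add]; exact h1) with h | h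
  · left
    by_cases hy : c.y.coeff e0 = 0
    · rw [show e0 = 0 by
        rw [he0, coeff_order_eq_zero.1 hy, HahnSeries.order_zero]]
      exact dvd_zero _
    have hd1 : c.dd (e0 + 1) = c.n := by
      have := c.per_mul_dd (e0 + 1)
      rwa [h, hp0, one_mul] at this
    exact hd1 ▸ c.dd_dvd (lt_add_one _) hy
  · right
    rw [delta, ht0, zero_sub] at h
    rw [show e0 = -(c.dd (e0 + 1) : ℤ) by omega]
    exact (neg_dvd).2 (c.dd_dvd_n _)

end OnePlace

end Fermat.Agent.AbhyankarMoh
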